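import Fermat.Agent.HilbertPsdSos.TernaryQuartic
import Fermat.Agent.HilbertSeventeen.Motzkin

/-!
# Psd forms that are no sums of squares

Motzkin's ternary sextic and the quaternary quartic of Choi and Lam, and their lifts to more
variables and higher degree.
-/

set_option autoImplicit false

noncomputable section

open MvPolynomial

namespace Fermat.Agent.HilbertPsdSos

open Fermat.Agent.HilbertSeventeen

variable {n d : ℕ}

/-- Motzkin's sextic form. -/
def motzkinForm : MvPolynomial (Fin 3) ℝ :=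
  X 0 ^ 4 * X 1 ^ 2 + X 0 ^ 2 * X 1 ^ 4 - C 3 * (X 0 ^ 2 * X 1 ^ 2 * X 2 ^ 2) + X 2 ^ 6

theorem isHomogeneous_motzkinForm : motzkinForm.IsHomogeneous (2 * 3) :=
  ((((isHomogeneous_X_pow 0 4).mul (isHomogeneous_X_pow 1 2)).add
    ((isHomogeneous_X_pow 0 2).mul (isHomogeneous_X_pow 1 4))).sub
    (IsHomogeneous.C_mul (((isHomogeneous_X_pow 0 2).mul (isHomogeneous_X_pow 1 2)).mul
      (isHomogeneous_X_pow 2 2)) 3)).add (isHomogeneous_X_pow 2 6)

theorem isPsd_motzkinForm : IsPsd motzkinForm := fun v => by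
  simp only [motzkinForm, map_add, map_sub, map_mul, map_pow, eval_X, eval_C]
  set a := v 0
  set b := v 1
  set c := v 2
  rcases eq_or_ne c 0 with hc | hc
  · rw [hc]
    have : 0 ≤ a ^ 4 * b ^ 2 + a ^ 2 * b ^ 4 := by positivity
    linarith
  have h := motzkinPoly_nonneg ![a / c, b / c]
  rw [eval_motzkinPoly] at h
  simp only [Matrix.cons_val_zero, Matrix.cons_val_one] at h
  have h6 : 0 < c ^ 6 := by positivity
  have := mul_nonneg h6.le h
  have e : c ^ 6 * ((a / c) ^ 4 * (b / c) ^ 2 + (a / c) ^ 2 * (b / c) ^ 4 -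
      3 * (a / c) ^ 2 * (b / c) ^ 2 + 1) =
      a ^ 4 * b ^ 2 + a ^ 2 * b ^ 4 - 3 * (a ^ 2 * b ^ 2 * c ^ 2) + c ^ 6 := by
    field_simp
  linarith

theorem not_isSumSq_motzkinForm : ¬ IsSumSq motzkinForm := fun h => by
  have e : bind₁ ![(X 0 : MvPolynomial (Fin 2) ℝ), X 1, 1] motzkinForm = motzkinPoly := by
    simp [motzkinForm, motzkinPoly, map_ofNat, mul_assoc]
  exact motzkinPoly_not_isSumSq (e ▸ isSumSq_map _ h)

/-- The quartic of Choi and Lam. -/
def choiLamForm : MvPolynomial (Fin 4) ℝ :=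
  X 3 ^ 4 + X 0 ^ 2 * X 1 ^ 2 + X 1 ^ 2 * X 2 ^ 2 + X 2 ^ 2 * X 0 ^ 2 -
    C 4 * (X 3 * X 0 * (X 1 * X 2))

theorem isHomogeneous_choiLamForm : choiLamForm.IsHomogeneous (2 * 2) :=
  ((((isHomogeneous_X_pow 3 4).add ((isHomogeneous_X_pow 0 2).mul (isHomogeneous_X_pow 1 2))).add
    ((isHomogeneous_X_pow 1 2).mul (isHomogeneous_X_pow 2 2))).add
    ((isHomogeneous_X_pow 2 2).mul (isHomogeneous_X_pow 0 2))).sub
    (IsHomogeneous.C_mul (((isHomogeneous_X ℝ 3).mul (isHomogeneous_X ℝ 0)).mul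
      ((isHomogeneous_X ℝ 1).mul (isHomogeneous_X ℝ 2))) 4)

theorem isPsd_choiLamForm : IsPsd choiLamForm := fun v => by
  simp only [choiLamForm, map_add, map_sub, map_mul, map_pow, eval_X, eval_C]
  set x := v 0
  set y := v 1
  set z := v 2
  set w := v 3
  -- `w⁴ + x²y² ≥ 2 w² |xy|` and `z² (x² + y²) ≥ 2 z² |xy|`
  have h1 : 2 * w ^ 2 * |x * y| ≤ w ^ 4 + x ^ 2 * y ^ 2 := by
    nlinarith [sq_nonneg (w ^ 2 - |x * y|), sq_abs (x * y)]
  have h2 : 2 * z ^ 2 * |x * y| ≤ y ^ 2 * z ^ 2 + z ^ 2 * x ^ 2 := by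
    nlinarith [mul_nonneg (sq_nonneg z) (sq_nonneg (|x| - |y|)), abs_mul x y, sq_abs x, sq_abs y]
  have h4 : 2 * |w * z| ≤ w ^ 2 + z ^ 2 := by
    nlinarith [sq_nonneg (|w| - |z|), abs_mul w z, sq_abs w, sq_abs z]
  have h5 : w * z * (x * y) ≤ |w * z| * |x * y| := (le_abs_self _).trans (abs_mul _ _).le
  have h3 : 4 * (w * x * (y * z)) ≤ 2 * w ^ 2 * |x * y| + 2 * z ^ 2 * |x * y| := by
    nlinarith [mul_le_mul_of_nonneg_right h4 (abs_nonneg (x * y))]
  linarith

theorem not_isFormSos_choiLamForm : ¬ IsFormSos 2 choiLamForm := by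
  rintro ⟨k, g, hg, e⟩
  set ew : Fin 4 → ℝ := ![0, 0, 0, 1]
  set ex : Fin 4 → ℝ := ![1, 0, 0, 0]
  set ey : Fin 4 → ℝ := ![0, 1, 0, 0]
  set ez : Fin 4 → ℝ := ![0, 0, 1, 0]
  choose l hl hle using fun i => exists_polar (hg i) ew
  have hval : ∀ v, eval v choiLamForm = ∑ i, eval v (g i) ^ 2 := fun v => by
    rw [e, map_sum]; simp
  have hfour : ∀ u ∈ ({ex, ey, ez} : Set (Fin 4 → ℝ)),
      eval u choiLamForm = 0 ∧ eval (u + (1 : ℝ) • ew) choiLamForm = 1 ∧
      eval (u + (-1 : ℝ) • ew) choiLamForm = 1 ∧ eval ew choiLamForm = 1 := by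
    rintro u (rfl | rfl | rfl) <;>
      simp [choiLamForm, ex, ey, ez, ew] <;> norm_num
  have hl0 : ∀ i, ∀ u ∈ ({ex, ey, ez} : Set (Fin 4 → ℝ)), eval u (l i) = 0 := by
    intro i u hu
    obtain ⟨e0, e1, e2, e3⟩ := hfour u hu
    rw [hval] at e0 e1 e2 e3
    have hz : ∀ j, eval u (g j) = 0 := fun j => by
      have := (Finset.sum_eq_zero_iff_of_nonneg fun j _ => sq_nonneg _).1 e0 j (Finset.mem_univ j)
      simpa using this
    simp only [hle, hz] at e1 e2
    have hsum : ∑ j, eval u (l j) ^ 2 = 0 := by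
      have : ∑ j, (8 * eval u (l j) ^ 2 + 2 * eval ew (g j) ^ 2) = 1 + 1 := by
        refine Eq.trans ?_ (congrArg₂ (· + ·) e1 e2)
        rw [← Finset.sum_add_distrib]
        refine Finset.sum_congr rfl fun j _ => ?_
        ring
      rw [Finset.sum_add_distrib, ← Finset.mul_sum, ← Finset.mul_sum, e3] at this
      linarith
    have := (Finset.sum_eq_zero_iff_of_nonneg fun j _ => sq_nonneg _).1 hsum i (Finset.mem_univ i)
    simpa using this
  set v : Fin 4 → ℝ := ex + (1 : ℝ) • ey + (1 : ℝ) • ez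
  have hlv : ∀ i, eval v (l i) = 0 := fun i => by
    simp only [v, eval_add_smul_linear (hl i)]
    rw [hl0 i ex (Or.inl rfl), hl0 i ey (Or.inr (Or.inl rfl)), hl0 i ez (Or.inr (Or.inr rfl))]
    ring
  have h1 : eval (v + (1 : ℝ) • ew) choiLamForm = eval (v + (-1 : ℝ) • ew) choiLamForm := by
    rw [hval, hval]
    refine Finset.sum_congr rfl fun i _ => ?_
    rw [hle, hle, hlv]
    ring
  simp [choiLamForm, v, ex, ey, ez, ew] at h1
  norm_num at h1

/-- The restriction to the line through `x`. -/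
def lineHom (x : Fin n → ℝ) : MvPolynomial (Fin n) ℝ →+* Polynomial ℝ :=
  eval₂Hom Polynomial.C fun i => Polynomial.C (x i) * Polynomial.X

theorem coeff_lineHom (x : Fin n → ℝ) (q : MvPolynomial (Fin n) ℝ) (m : ℕ) :
    (lineHom x q).coeff m = eval x (homogeneousComponent m q) := by
  induction q using MvPolynomial.induction_on' with
  | monomial s c =>
    have e1 : lineHom x (monomial s c) =
        Polynomial.C (c * ∏ i, x i ^ s i) * Polynomial.X ^ s.degree := by
      simp only [lineHom, coe_eval₂Hom, eval₂_monomial]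
      rw [Finsupp.prod_fintype _ _ fun i => pow_zero _, Finsupp.degree_eq_sum,
        ← Finset.prod_pow_eq_pow_sum, map_mul, map_prod, mul_assoc, ← Finset.prod_mul_distrib]
      refine congrArg _ (Finset.prod_congr rfl fun i _ => ?_)
      rw [mul_pow, map_pow]
    rw [e1, Polynomial.coeff_C_mul_X_pow]
    by_cases hm : m = s.degree
    · rw [if_pos hm, hm, homogeneousComponent_eq_self (isHomogeneous_monomial c rfl),
        eval_monomial, Finsupp.prod_fintype _ _ fun i => pow_zero _]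
    · rw [if_neg hm,
        homogeneousComponent_of_mem (isHomogeneous_monomial (n := s.degree) c rfl), if_neg hm,
        map_zero]
  | add q r hq hr => simp [hq, hr]

/-- Squares summing to a form of degree `2 d` have no parts of degree above `d`. -/
theorem natDegree_lineHom_le {k : ℕ} {g : Fin k → MvPolynomial (Fin n) ℝ}
    {p : MvPolynomial (Fin n) ℝ} (hg : p = ∑ i, g i * g i)
    (hp : ∀ m, 2 * d < m → homogeneousComponent m p = 0) (x : Fin n → ℝ) (i : Fin k) :
    (lineHom x (g i)).natDegree ≤ d :=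
  natDegree_le_of_sum_sq (fun i => lineHom x (g i))
    (P := lineHom x p) (by rw [hg, map_sum]; simp only [map_mul])
    (Polynomial.natDegree_le_iff_coeff_eq_zero.2 fun m hm => by
      rw [coeff_lineHom, hp m hm, map_zero]) i

/-- A sum of squares whose members are forms of the right degree. -/
theorem isFormSos_of_isSumSq {p : MvPolynomial (Fin n) ℝ} (hp : p.IsHomogeneous (2 * d))
    (h : IsSumSq p) : IsFormSos d p := by
  classical
  obtain ⟨k, g, hg⟩ := exists_fin_of_isSumSq h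
  refine ⟨k, fun i => homogeneousComponent d (g i),
    fun i => homogeneousComponent_isHomogeneous d _, ?_⟩
  refine MvPolynomial.funext fun x => ?_
  have hdeg := natDegree_lineHom_le hg
    (fun m hm => by rw [homogeneousComponent_of_mem hp, if_neg (Nat.ne_of_gt hm)]) x
  have h2 := congrArg (fun q => (lineHom x q).coeff (2 * d)) hg
  simp only [map_sum, map_mul, Polynomial.finsetSum_coeff, coeff_lineHom,
    homogeneousComponent_eq_self hp] at h2
  rw [map_sum, h2]
  refine Finset.sum_congr rfl fun i _ => ?_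
  rw [two_mul, Polynomial.coeff_mul_add_eq_of_natDegree_le (hdeg i) (hdeg i), coeff_lineHom,
    map_pow, sq]

/-- More variables. -/
theorem not_isSumSq_rename {m : ℕ} (hmn : n ≤ m) {p : MvPolynomial (Fin n) ℝ} (h : ¬ IsSumSq p) :
    ¬ IsSumSq (rename (Fin.castLE hmn) p) := fun h' => h (by
  have := isSumSq_map (killCompl (R := ℝ) (Fin.castLE_injective hmn)) h'
  rwa [killCompl_rename_app] at this)

theorem X_dvd_of_vanishes {g : MvPolynomial (Fin (n + 1)) ℝ}
    (h : ∀ y : Fin n → ℝ, eval (Fin.cons 0 y : Fin (n + 1) → ℝ) g = 0) : X 0 ∣ g := by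
  have h0 : (finSuccEquiv ℝ n g).coeff 0 = 0 := MvPolynomial.funext fun y => by
    rw [map_zero, ← h y, eval_eq_eval_mv_eval', ← Polynomial.coeff_zero_eq_eval_zero,
      Polynomial.coeff_map]
  obtain ⟨q, hq⟩ := Polynomial.X_dvd_iff.2 h0
  exact ⟨(finSuccEquiv ℝ n).symm q, (finSuccEquiv ℝ n).injective (by
    rw [map_mul, finSuccEquiv_X_zero, AlgEquiv.apply_symm_apply, hq])⟩

/-- Higher degree. -/
theorem not_isSumSq_X_sq_mul {p : MvPolynomial (Fin (n + 1)) ℝ} (h : ¬ IsSumSq p) :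
    ¬ IsSumSq (X 0 ^ 2 * p) := fun h' => h (by
  obtain ⟨k, g, hg⟩ := exists_fin_of_isSumSq h'
  have hdvd : ∀ i, X 0 ∣ g i := fun i => X_dvd_of_vanishes fun y => by
    have := congrArg (eval (Fin.cons 0 y : Fin (n + 1) → ℝ)) hg
    simp only [map_mul, map_pow, eval_X, Fin.cons_zero, zero_pow two_ne_zero, zero_mul,
      map_sum] at this
    have := (Finset.sum_eq_zero_iff_of_nonneg fun i _ => mul_self_nonneg _).1 this.symm i
      (Finset.mem_univ i)
    simpa using this
  choose q hq using hdvd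
  have e : p = ∑ i, q i * q i := by
    refine mul_left_cancel₀ (pow_ne_zero 2 (X_ne_zero (0 : Fin (n + 1)))) (hg.trans ?_)
    rw [Finset.mul_sum]
    refine Finset.sum_congr rfl fun i _ => ?_
    rw [hq i]
    ring
  rw [e]
  exact IsSumSq.sum_mul_self _ _)

/-- A psd form of degree `2 d` in `n` variables that is no sum of squares. -/
def HasBadForm (n d : ℕ) : Prop :=
  ∃ p : MvPolynomial (Fin n) ℝ, p.IsHomogeneous (2 * d) ∧ IsPsd p ∧ ¬ IsSumSq p

theorem HasBadForm.mono {m : ℕ} (h : HasBadForm n d) (hmn : n ≤ m) : HasBadForm m d := by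
  obtain ⟨p, hp, hpsd, hns⟩ := h
  exact ⟨_, hp.rename_isHomogeneous, fun x => by rw [eval_rename]; exact hpsd _,
    not_isSumSq_rename hmn hns⟩

theorem HasBadForm.succ (h : HasBadForm (n + 1) d) : HasBadForm (n + 1) (d + 1) := by
  obtain ⟨p, hp, hpsd, hns⟩ := h
  refine ⟨X 0 ^ 2 * p, ?_, fun x => ?_, not_isSumSq_X_sq_mul hns⟩
  · rw [show 2 * (d + 1) = 2 + 2 * d by ring]
    exact (isHomogeneous_X_pow 0 2).mul hp
  · rw [map_mul, map_pow, eval_X]
    exact mul_nonneg (sq_nonneg _) (hpsd x)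

theorem hasBadForm_three {d : ℕ} (hd : 3 ≤ d) : HasBadForm 3 d := by
  induction d, hd using Nat.le_induction with
  | base => exact ⟨_, isHomogeneous_motzkinForm, isPsd_motzkinForm, not_isSumSq_motzkinForm⟩
  | succ d _ ih => exact ih.succ

theorem hasBadForm_four {d : ℕ} (hd : 2 ≤ d) : HasBadForm 4 d := by
  induction d, hd using Nat.le_induction with
  | base => exact ⟨_, isHomogeneous_choiLamForm, isPsd_choiLamForm,
      fun h => not_isFormSos_choiLamForm (isFormSos_of_isSumSq isHomogeneous_choiLamForm h)⟩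
  | succ d _ ih => exact ih.succ

theorem IsFormSos.isSumSq {p : MvPolynomial (Fin n) ℝ} (h : IsFormSos d p) : IsSumSq p := by
  obtain ⟨k, g, -, rfl⟩ := h
  simp only [sq]
  exact IsSumSq.sum_mul_self _ _

/-- The three cases of Hilbert. -/
theorem dominates_of_cases (h : n ≤ 2 ∨ d ≤ 1 ∨ (n = 3 ∧ d = 2)) : Dominates n d := by
  rcases h with h | h | ⟨rfl, rfl⟩
  · rcases Nat.lt_or_ge n 2 with h' | h'
    · exact dominates_le_one (by omega) d
    · obtain rfl : n = 2 := le_antisymm h h'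
      exact dominates_two d
  · interval_cases d
    · exact dominates_zero n
    · exact dominates_one n
  · exact dominates_three_two

/-- **Hilbert's classification.** -/
theorem psd_eq_sos_iff (n d : ℕ) :
    (∀ p : MvPolynomial (Fin n) ℝ, p.IsHomogeneous (2 * d) → IsPsd p → IsSumSq p) ↔
      n ≤ 2 ∨ d ≤ 1 ∨ (n = 3 ∧ d = 2) := by
  refine ⟨fun h => ?_, fun h p hp hpsd =>
    (isFormSos_of_dominates (dominates_of_cases h) p hp hpsd).isSumSq⟩
  by_contra! hcon
  obtain ⟨hn, hd, h32⟩ := hcon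
  have hbad : HasBadForm n d := by
    rcases Nat.lt_or_ge n 4 with h4 | h4
    · obtain rfl : n = 3 := by omega
      exact hasBadForm_three (by have := h32 rfl; omega)
    · exact (hasBadForm_four hd).mono h4
  obtain ⟨p, hp, hpsd, hns⟩ := hbad
  exact hns (h p hp hpsd)

end Fermat.Agent.HilbertPsdSos
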