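import Fermat.Agent.HilbertPsdSos.Counterexamples

/-!
# Polynomials of bounded degree

Homogenisation turns a polynomial of degree at most `2 d` in `n` variables into a form of degree
`2 d` in `n + 1` variables and respects positivity and sums of squares.
-/

set_option autoImplicit false

noncomputable section

open MvPolynomial

namespace Fermat.Agent.HilbertPsdSos

open Fermat.Agent.HilbertSeventeen

variable {n d : ℕ}

/-- The form of degree `m` with the parts of `p` of degree at most `m`. -/
def homogenise (m : ℕ) (p : MvPolynomial (Fin n) ℝ) : MvPolynomial (Fin (n + 1)) ℝ :=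
  ∑ i ∈ Finset.range (m + 1), X 0 ^ (m - i) * rename Fin.succ (homogeneousComponent i p)

theorem isHomogeneous_homogenise (m : ℕ) (p : MvPolynomial (Fin n) ℝ) :
    (homogenise m p).IsHomogeneous m := by
  refine IsHomogeneous.sum _ _ _ fun i hi => ?_
  have := (isHomogeneous_X_pow (R := ℝ) (0 : Fin (n + 1)) (m - i)).mul
    ((homogeneousComponent_isHomogeneous i p).rename_isHomogeneous (f := Fin.succ))
  rwa [Nat.sub_add_cancel (Nat.lt_succ_iff.1 (Finset.mem_range.1 hi))] at this

theorem sum_range_components {m : ℕ} {p : MvPolynomial (Fin n) ℝ}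
    (hp : ∀ i, m < i → homogeneousComponent i p = 0) :
    ∑ i ∈ Finset.range (m + 1), homogeneousComponent i p = p := by
  have hz : ∀ i, p.totalDegree < i → homogeneousComponent i p = 0 := fun i hi =>
    homogeneousComponent_eq_zero i p hi
  rw [← Finset.sum_subset (s₁ := Finset.range (min m p.totalDegree + 1))
    (fun i hi => by simp only [Finset.mem_range] at hi ⊢; omega) fun i hi hi' => by
      simp only [Finset.mem_range] at hi hi'; exact hz i (by omega)]
  conv_rhs => rw [← sum_homogeneousComponent p]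
  refine Finset.sum_subset (fun i hi => by simp only [Finset.mem_range] at hi ⊢; omega)
    fun i hi hi' => ?_
  simp only [Finset.mem_range] at hi hi'
  exact hp i (by omega)

theorem eval_homogenise {m : ℕ} {p : MvPolynomial (Fin n) ℝ}
    (hp : ∀ i, m < i → homogeneousComponent i p = 0) {t : ℝ} (ht : t ≠ 0) (y : Fin n → ℝ) :
    eval (Fin.cons t y : Fin (n + 1) → ℝ) (homogenise m p) = t ^ m * eval (t⁻¹ • y) p := by
  conv_rhs => rw [← sum_range_components hp]
  rw [homogenise, map_sum, map_sum, Finset.mul_sum]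
  refine Finset.sum_congr rfl fun i hi => ?_
  rw [map_mul, map_pow, eval_X, Fin.cons_zero, eval_rename,
    show (Fin.cons t y : Fin (n + 1) → ℝ) ∘ Fin.succ = y from funext fun j => Fin.cons_succ _ _ j,
    eval_smul_point (homogeneousComponent_isHomogeneous i p), ← mul_assoc,
    pow_sub₀ _ ht (Nat.lt_succ_iff.1 (Finset.mem_range.1 hi)), inv_pow]

theorem isPsd_homogenise {p : MvPolynomial (Fin n) ℝ}
    (hp : ∀ i, 2 * d < i → homogeneousComponent i p = 0) (hpsd : IsPsd p) :
    IsPsd (homogenise (2 * d) p) := fun v => by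
  have key : ∀ t, t ≠ 0 →
      0 ≤ eval (Fin.cons t (Fin.tail v) : Fin (n + 1) → ℝ) (homogenise (2 * d) p) := fun t ht => by
    rw [eval_homogenise hp ht]
    exact mul_nonneg ((even_two_mul d).pow_nonneg t) (hpsd _)
  rcases eq_or_ne (v 0) 0 with h | h
  · have hline : Continuous fun t : ℝ => (Fin.cons t (Fin.tail v) : Fin (n + 1) → ℝ) :=
      continuous_pi fun i => Fin.cases (by simpa using continuous_id') (fun j => by
        simpa using continuous_const) i
    have := nonneg_of_ne ((homogenise (2 * d) p).continuous_eval.comp hline) key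
    rwa [Function.comp_apply, show (Fin.cons (0 : ℝ) (Fin.tail v) : Fin (n + 1) → ℝ) = v by
      rw [← h, Fin.cons_self_tail]] at this
  · have := key _ h
    rwa [Fin.cons_self_tail] at this

/-- Setting the first variable to `1`. -/
def dehomogenise : MvPolynomial (Fin (n + 1)) ℝ →ₐ[ℝ] MvPolynomial (Fin n) ℝ :=
  aeval (Fin.cons 1 X : Fin (n + 1) → MvPolynomial (Fin n) ℝ)

theorem eval_dehomogenise (P : MvPolynomial (Fin (n + 1)) ℝ) (y : Fin n → ℝ) :
    eval y (dehomogenise P) = eval (Fin.cons 1 y : Fin (n + 1) → ℝ) P :=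
  DFunLike.congr_fun (ringHom_ext (f := (eval y).comp dehomogenise.toRingHom)
    (g := eval (Fin.cons 1 y : Fin (n + 1) → ℝ)) (fun c => by simp [dehomogenise]) fun i => by
      refine Fin.cases ?_ (fun j => ?_) i <;> simp [dehomogenise]) P

theorem dehomogenise_homogenise {m : ℕ} {p : MvPolynomial (Fin n) ℝ}
    (hp : ∀ i, m < i → homogeneousComponent i p = 0) : dehomogenise (homogenise m p) = p :=
  MvPolynomial.funext fun y => by
    rw [eval_dehomogenise, eval_homogenise hp one_ne_zero, one_pow, one_mul, inv_one, one_smul]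

/-- Psd forms in `n + 1` variables being sums of squares, so are psd polynomials in `n`. -/
theorem isSumSq_of_dominates (hD : Dominates (n + 1) d) {p : MvPolynomial (Fin n) ℝ}
    (hp : p.totalDegree ≤ 2 * d) (hpsd : IsPsd p) : IsSumSq p := by
  have hc : ∀ i, 2 * d < i → homogeneousComponent i p = 0 := fun i hi =>
    homogeneousComponent_eq_zero i p (by omega)
  have := isSumSq_map (dehomogenise (n := n))
    (isFormSos_of_dominates hD _ (isHomogeneous_homogenise (2 * d) p)
      (isPsd_homogenise hc hpsd)).isSumSq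
  rwa [dehomogenise_homogenise hc] at this

theorem totalDegree_dehomogenise_le {m : ℕ} {P : MvPolynomial (Fin (n + 1)) ℝ}
    (hP : P.IsHomogeneous m) : (dehomogenise P).totalDegree ≤ m := by
  rw [P.as_sum, map_sum]
  refine totalDegree_finsetSum_le fun s hs => ?_
  rw [dehomogenise, aeval_monomial, Finsupp.prod_fintype _ _ fun _ => pow_zero _, algebraMap_eq]
  refine (totalDegree_mul _ _).trans ?_
  rw [totalDegree_C, zero_add]
  refine (totalDegree_finsetProd _ _).trans ?_
  have hs' := hP.degree_eq_sum_deg_support hs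
  rw [← Finsupp.degree_apply, Finsupp.degree_eq_sum] at hs'
  rw [hs']
  refine Finset.sum_le_sum fun i _ => (totalDegree_pow _ _).trans ?_
  refine (Nat.mul_le_mul_left _ ?_).trans (mul_one _).le
  refine Fin.cases ?_ (fun j => ?_) i <;> simp

/-- A bad form in `n + 1` variables gives a bad polynomial in `n`. -/
theorem HasBadForm.dehomogenise (h : HasBadForm (n + 1) d) :
    ∃ p : MvPolynomial (Fin n) ℝ, p.totalDegree ≤ 2 * d ∧ IsPsd p ∧ ¬ IsSumSq p := by
  obtain ⟨P, hP, hpsd, hns⟩ := h
  refine ⟨HilbertPsdSos.dehomogenise P, totalDegree_dehomogenise_le hP, fun y => ?_,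
    fun hsq => hns ?_⟩
  · rw [eval_dehomogenise]
    exact hpsd _
  obtain ⟨k, g, hg⟩ := exists_fin_of_isSumSq hsq
  have hc : ∀ i, 2 * d < i → homogeneousComponent i (HilbertPsdSos.dehomogenise P) = 0 :=
    fun i hi => homogeneousComponent_eq_zero i _ ((totalDegree_dehomogenise_le hP).trans_lt hi)
  have hgc : ∀ j i, d < i → homogeneousComponent i (g j) = 0 := fun j i hi =>
    MvPolynomial.funext fun x => by
      rw [map_zero, ← coeff_lineHom,
        Polynomial.coeff_eq_zero_of_natDegree_lt ((natDegree_lineHom_le hg hc x j).trans_lt hi)]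
  have e : P = ∑ j, homogenise d (g j) * homogenise d (g j) := by
    refine mul_right_cancel₀ (X_ne_zero (0 : Fin (n + 1))) (MvPolynomial.funext fun v => ?_)
    rw [map_mul, map_mul, eval_X]
    rcases eq_or_ne (v 0) 0 with h0 | h0
    · simp [h0]
    refine congrArg (· * v 0) ?_
    have hv : v = v 0 • (Fin.cons 1 ((v 0)⁻¹ • Fin.tail v) : Fin (n + 1) → ℝ) := by
      funext i
      refine Fin.cases ?_ (fun j => ?_) i
      · simp
      · simp [Fin.tail, h0]
    conv_lhs => rw [hv, eval_smul_point hP, ← eval_dehomogenise, hg, map_sum, Finset.mul_sum]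
    rw [map_sum]
    refine Finset.sum_congr rfl fun j _ => ?_
    conv_rhs => rw [map_mul, ← Fin.cons_self_tail v, eval_homogenise (hgc j) h0]
    rw [map_mul]
    ring
  rw [e]
  exact IsSumSq.sum_mul_self _ _

/-- **Hilbert's classification for polynomials.** -/
theorem psd_eq_sos_polynomial_iff (n d : ℕ) :
    (∀ p : MvPolynomial (Fin n) ℝ, p.totalDegree ≤ 2 * d → IsPsd p → IsSumSq p) ↔
      n ≤ 1 ∨ d ≤ 1 ∨ (n = 2 ∧ d = 2) := by
  refine ⟨fun h => ?_, fun h p hp hpsd =>
    isSumSq_of_dominates (dominates_of_cases (by omega)) hp hpsd⟩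
  by_contra hcon
  obtain ⟨p, hp, hpsd, hns⟩ : ∃ p : MvPolynomial (Fin n) ℝ,
      p.totalDegree ≤ 2 * d ∧ IsPsd p ∧ ¬ IsSumSq p := by
    refine HasBadForm.dehomogenise ?_
    rcases Nat.lt_or_ge n 3 with h3 | h3
    · obtain rfl : n = 2 := by omega
      exact hasBadForm_three (by omega)
    · exact (hasBadForm_four (by omega)).mono (by omega)
  exact hns (h p hp hpsd)

end Fermat.Agent.HilbertPsdSos
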