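import Fermat.Agent.HilbertPsdSos.Forms

/-!
# Binary forms and quadratic forms

A psd quadratic form dominates the square of a polar form; a psd binary form is definite or has a
double linear factor.
-/

set_option autoImplicit false

noncomputable section

open MvPolynomial

namespace Fermat.Agent.HilbertPsdSos

variable {n d : ℕ}

/-- A continuous function that is nonnegative off a point is nonnegative there. -/
theorem nonneg_of_ne {φ : ℝ → ℝ} (hφ : Continuous φ) {a : ℝ} (h : ∀ t, t ≠ a → 0 ≤ φ t) :
    0 ≤ φ a :=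
  ge_of_tendsto (hφ.continuousWithinAt : Filter.Tendsto φ (nhdsWithin a {a}ᶜ) (nhds (φ a)))
    (eventually_nhdsWithin_of_forall h)

theorem eval_add_smul_linear {a : MvPolynomial (Fin n) ℝ} (ha : a.IsHomogeneous 1)
    (x v : Fin n → ℝ) (t : ℝ) : eval (x + t • v) a = eval x a + t * eval v a := by
  have h : a ∈ Submodule.span ℝ (Set.range (X : Fin n → MvPolynomial (Fin n) ℝ)) := by
    rw [← homogeneousSubmodule_one_eq_span_X]
    exact ha
  clear ha
  induction h using Submodule.span_induction with
  | mem a ha => obtain ⟨i, rfl⟩ := ha; simp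
  | zero => simp
  | add a b _ _ iha ihb => rw [map_add, map_add, map_add, iha, ihb]; ring
  | smul c a _ iha => rw [smul_eval, smul_eval, smul_eval, iha]; ring

/-- The polar form of a quadratic form. -/
theorem exists_polar {p : MvPolynomial (Fin n) ℝ} (hp : p.IsHomogeneous 2) (v : Fin n → ℝ) :
    ∃ l : MvPolynomial (Fin n) ℝ, l.IsHomogeneous 1 ∧
      ∀ (x : Fin n → ℝ) (t : ℝ),
        eval (x + t • v) p = eval x p + 2 * t * eval x l + t ^ 2 * eval v p := by
  have h : p ∈ homogeneousSubmodule (Fin n) ℝ 1 * homogeneousSubmodule (Fin n) ℝ 1 := by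
    rw [← sq, homogeneousSubmodule_one_pow]
    exact hp
  refine Submodule.mul_induction_on
    (C := fun q => ∃ l : MvPolynomial (Fin n) ℝ, l.IsHomogeneous 1 ∧ ∀ (x : Fin n → ℝ) (t : ℝ),
      eval (x + t • v) q = eval x q + 2 * t * eval x l + t ^ 2 * eval v q)
    h (fun a ha b hb => ?_) fun a b iha ihb => ?_
  · refine ⟨C (eval v a / 2) * b + C (eval v b / 2) * a,
      (IsHomogeneous.C_mul hb _).add (IsHomogeneous.C_mul ha _), fun x t => ?_⟩
    simp only [map_mul, map_add, eval_C, eval_add_smul_linear ha, eval_add_smul_linear hb]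
    ring
  · obtain ⟨l, hl, el⟩ := iha
    obtain ⟨l', hl', el'⟩ := ihb
    exact ⟨l + l', hl.add hl', fun x t => by simp only [map_add, el, el']; ring⟩

/-- **Quadratic forms**: a nonzero psd one dominates the square of a linear form. -/
theorem dominates_one (n : ℕ) : Dominates n 1 := by
  intro p hp hpsd hp0
  obtain ⟨v, hv⟩ := exists_eval_ne_zero hp0
  have hpos : 0 < eval v p := lt_of_le_of_ne (hpsd v) hv.symm
  obtain ⟨l, hl, e⟩ := exists_polar hp v
  have hs : 0 < Real.sqrt (eval v p) := Real.sqrt_pos.2 hpos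
  refine ⟨C (Real.sqrt (eval v p))⁻¹ * l, hl.C_mul _, ?_, fun x => ?_⟩
  · intro e0
    have h1 := e v 1
    have h2 := congrArg (eval v) e0
    rw [map_mul, eval_C, map_zero, mul_eq_zero, inv_eq_zero] at h2
    rw [one_smul, ← two_smul ℝ v, eval_smul_point hp, h2.resolve_left hs.ne'] at h1
    norm_num at h1
    linarith
  · have h := hpsd (x + (-(eval x l / eval v p)) • v)
    rw [e] at h
    rw [map_mul, eval_C, mul_pow, inv_pow, Real.sq_sqrt hpos.le, inv_mul_le_iff₀ hpos]
    field_simp at h
    nlinarith

/-- Forms of degree zero. -/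
theorem dominates_zero (n : ℕ) : Dominates n 0 := by
  intro p hp hpsd hp0
  have e : p = C (coeff 0 p) := totalDegree_eq_zero_iff_eq_C.1
    ((totalDegree_zero_iff_isHomogeneous (Fin n)).2 hp)
  have hc : 0 < coeff 0 p := by
    refine lt_of_le_of_ne ?_ fun e0 => hp0 (by rw [e, ← e0, map_zero])
    have := hpsd 0
    rwa [e, eval_C] at this
  refine ⟨C (Real.sqrt (coeff 0 p)), isHomogeneous_C _ _,
    fun e0 => (Real.sqrt_pos.2 hc).ne' (C_injective _ _ (e0.trans (map_zero C).symm)), fun x => ?_⟩
  rw [eval_C, Real.sq_sqrt hc.le]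
  conv_rhs => rw [e, eval_C]

/-- A definite form dominates a square. -/
theorem dominated_of_definite (hn : 0 < n) (hd : d ≠ 0) {p : MvPolynomial (Fin n) ℝ}
    (hp : p.IsHomogeneous (2 * d)) (hpd : ∀ x, x ≠ 0 → 0 < eval x p) :
    ∃ q : MvPolynomial (Fin n) ℝ, q.IsHomogeneous d ∧ q ≠ 0 ∧ ∀ x, eval x q ^ 2 ≤ eval x p := by
  obtain ⟨ε, hε, h⟩ := exists_mul_abs_le (m := 2 * d) (by omega) hp
    (isHomogeneous_X_pow ⟨0, hn⟩ (2 * d)) hpd
  refine ⟨C (Real.sqrt ε) * X ⟨0, hn⟩ ^ d, (isHomogeneous_X_pow _ d).C_mul _,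
    mul_ne_zero (fun e => (Real.sqrt_pos.2 hε).ne' (C_injective _ _ (e.trans (map_zero C).symm)))
      (pow_ne_zero d (X_ne_zero _)), fun x => ?_⟩
  have := h x
  rw [map_pow, eval_X, abs_of_nonneg ((even_two_mul d).pow_nonneg _)] at this
  rw [map_mul, eval_C, map_pow, eval_X, mul_pow, Real.sq_sqrt hε.le, ← pow_mul, mul_comm d 2]
  exact this

/-- Forms in at most one variable. -/
theorem dominates_le_one {n : ℕ} (hn : n ≤ 1) (d : ℕ) : Dominates n d := by
  rcases Nat.eq_zero_or_pos d with rfl | hd
  · exact dominates_zero n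
  intro p hp hpsd hp0
  obtain ⟨v, hv⟩ := exists_eval_ne_zero hp0
  have h00 : eval (0 : Fin n → ℝ) p = 0 := by
    have := eval_smul_point hp 0 0
    rwa [zero_smul, zero_pow (by omega), zero_mul] at this
  rcases Nat.eq_zero_or_pos n with rfl | hn'
  · exact absurd (by rwa [show v = 0 from funext fun i => i.elim0]) hv
  obtain rfl : n = 1 := by omega
  refine dominated_of_definite one_pos hd.ne' hp fun x hx => ?_
  refine lt_of_le_of_ne (hpsd x) fun e => hv ?_
  have hx0 : x 0 ≠ 0 := fun e0 => hx (funext fun i => by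
    rw [Subsingleton.elim i 0, e0]; rfl)
  rw [show v = (v 0 / x 0) • x from funext fun i => by
    rw [Subsingleton.elim i 0, Pi.smul_apply, smul_eq_mul, div_mul_cancel₀ _ hx0],
    eval_smul_point hp, ← e, mul_zero]

theorem eval_monomial_two (i j : ℕ) (c : ℝ) (v : Fin 2 → ℝ) :
    eval v (monomial (Finsupp.single 0 i + Finsupp.single 1 j) c) = c * (v 0 ^ i * v 1 ^ j) := by
  rw [monomial_eq, map_mul, eval_C, map_finsuppProd, Finsupp.prod_fintype _ _ (fun _ => by simp),
    Fin.prod_univ_two]
  simp

/-- **Binary forms**: a nonzero psd one dominates a square. -/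
theorem dominates_two : ∀ d, Dominates 2 d
  | 0 => dominates_zero 2
  | d + 1 => by
    intro p hp hpsd hp0
    by_cases hpd : ∀ x, x ≠ 0 → 0 < eval x p
    · exact dominated_of_definite two_pos d.succ_ne_zero hp hpd
    push Not at hpd
    obtain ⟨r, hr, hr0⟩ := hpd
    have hr0' : eval r p = 0 := le_antisymm hr0 (hpsd r)
    set N := r 0 * r 0 + r 1 * r 1 with hN
    have hN0 : N ≠ 0 := fun e => hr (funext fun i => by
      have h0 := mul_self_eq_zero.1 (show r 0 * r 0 = 0 by
        nlinarith [mul_self_nonneg (r 0), mul_self_nonneg (r 1)])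
      have h1 := mul_self_eq_zero.1 (show r 1 * r 1 = 0 by
        nlinarith [mul_self_nonneg (r 0), mul_self_nonneg (r 1)])
      fin_cases i <;> assumption)
    set L : Fin 2 → MvPolynomial (Fin 2) ℝ :=
      ![C (r 0) * X 0 - C (r 1) * X 1, C (r 1) * X 0 + C (r 0) * X 1] with hL
    have hLh : ∀ i, (L i).IsHomogeneous 1 := fun i => by
      fin_cases i
      · exact (isHomogeneous_C_mul_X _ _).sub (isHomogeneous_C_mul_X _ _)
      · exact (isHomogeneous_C_mul_X _ _).add (isHomogeneous_C_mul_X _ _)
    set T : (Fin 2 → ℝ) → Fin 2 → ℝ := fun x => fun i => eval x (L i)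
    set S : Fin 2 → MvPolynomial (Fin 2) ℝ :=
      ![C (r 0 / N) * X 0 + C (r 1 / N) * X 1, C (-r 1 / N) * X 0 + C (r 0 / N) * X 1]
    refine dominated_of_subst (d := d + 1) S (fun i => by
      fin_cases i <;> exact (isHomogeneous_C_mul_X _ _).add (isHomogeneous_C_mul_X _ _)) T
      (fun v => ?_) (fun w => ?_) ?_
    · funext i
      fin_cases i <;> simp [T, L, S] <;> field_simp <;> rw [hN] <;> ring
    · funext i
      fin_cases i <;> simp [T, L, S] <;> field_simp <;> rw [hN] <;> ring
    set p' := bind₁ L p with hp'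
    have hp'e : ∀ x, eval x p' = eval (T x) p := fun x =>
      DFunLike.congr_fun (ringHom_ext (f := (eval x).comp (bind₁ L).toRingHom)
        (g := eval (T x)) (fun b => by simp) fun i => by simp [T]) p
    have hp'h : p'.IsHomogeneous (2 * (d + 1)) := one_mul (2 * (d + 1)) ▸ hp.aeval L hLh
    have hp'1 : eval ![1, 0] p' = 0 := by
      rw [hp'e, show T ![1, 0] = r from funext fun i => by fin_cases i <;> simp [T, L]]
      exact hr0'
    set s : Fin 2 →₀ ℕ := Finsupp.single 1 2
    set f := p'.divMonomial s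
    set rem := p'.modMonomial s
    set m₀ : Fin 2 →₀ ℕ := Finsupp.single 0 (2 * (d + 1)) + Finsupp.single 1 0
    set m₁ : Fin 2 →₀ ℕ := Finsupp.single 0 (2 * d + 1) + Finsupp.single 1 1
    have hfh : f.IsHomogeneous (2 * d) := fun e he => by
      rw [coeff_divMonomial] at he
      have := hp'h he
      simp only [map_add, s, Finsupp.weight_apply, Finsupp.sum_single_index, Pi.one_apply,
        smul_eq_mul, mul_one] at this ⊢
      omega
    have hrem : rem = monomial m₀ (coeff m₀ p') + monomial m₁ (coeff m₁ p') := by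
      ext e
      rw [coeff_add, coeff_monomial, coeff_monomial]
      by_cases hs : s ≤ e
      · rw [coeff_modMonomial_of_le _ hs]
        have h1 : 2 ≤ e 1 := by simpa [s] using hs 1
        rw [if_neg fun h => by rw [← h] at h1; simp [m₀] at h1,
          if_neg fun h => by rw [← h] at h1; simp [m₁] at h1, add_zero]
      · rw [coeff_modMonomial_of_not_le _ hs]
        have h1 : e 1 < 2 := by
          by_contra! h
          exact hs (Finsupp.single_le_iff.2 h)
        have hdeg : e.degree = e 0 + e 1 := by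
          rw [Finsupp.degree_eq_sum, Fin.sum_univ_two]
        by_cases he : e.degree = 2 * (d + 1)
        · obtain h | h : e 1 = 0 ∨ e 1 = 1 := by omega
          · have : m₀ = e := Finsupp.ext fun i => by fin_cases i <;> simp [m₀] <;> omega
            subst this
            rw [if_pos rfl, if_neg fun h' => by simpa [m₀, m₁] using congr($h' 1), add_zero]
          · have : m₁ = e := Finsupp.ext fun i => by fin_cases i <;> simp [m₁] <;> omega
            subst this
            rw [if_pos rfl, if_neg fun h' => by simpa [m₀, m₁] using congr($h' 1), zero_add]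
        · rw [hp'h.coeff_eq_zero he,
            if_neg fun h => he (by rw [← h]; simp [m₀, Finsupp.degree_eq_sum, Fin.sum_univ_two]),
            if_neg fun h => he (by
              rw [← h]; simp [m₁, Finsupp.degree_eq_sum, Fin.sum_univ_two]; omega), add_zero]
    have hev : ∀ v : Fin 2 → ℝ, eval v p' = v 1 ^ 2 * eval v f +
        (coeff m₀ p' * v 0 ^ (2 * (d + 1)) + coeff m₁ p' * (v 0 ^ (2 * d + 1) * v 1)) := by
      intro v
      conv_lhs => rw [← MvPolynomial.divMonomial_add_modMonomial p' s]
      rw [map_add, map_mul]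
      change eval v (monomial s 1) * eval v f + eval v rem = _
      rw [hrem, map_add, show (monomial s (1 : ℝ)) = X 1 ^ 2 from (X_pow_eq_monomial ..).symm,
        eval_monomial_two, eval_monomial_two, map_pow, eval_X]
      ring
    have ha : coeff m₀ p' = 0 := by simpa [hev] using hp'1
    have hb : coeff m₁ p' = 0 := by
      set ψ : ℝ → ℝ := fun t => t * eval ![1, t] f + coeff m₁ p'
      have hψ : Continuous ψ := by
        have : Continuous fun t : ℝ => (![1, t] : Fin 2 → ℝ) := by fun_prop
        exact (continuous_id.mul (f.continuous_eval.comp this)).add continuous_const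
      have hsign : ∀ t : ℝ, 0 ≤ t * ψ t := fun t => by
        have := hp'e ![1, t] ▸ hpsd (T ![1, t])
        rw [hev, ha] at this
        simp at this
        simp only [ψ]
        nlinarith
      have h1 : 0 ≤ ψ 0 := by
        have := nonneg_of_ne (φ := fun t => ψ |t|) (hψ.comp continuous_abs) (a := 0) fun t ht =>
          nonneg_of_mul_nonneg_right (hsign |t|) (abs_pos.2 ht)
        simpa using this
      have h2 : 0 ≤ -ψ 0 := by
        have := nonneg_of_ne (φ := fun t => -ψ (-|t|)) (hψ.comp continuous_abs.neg).neg (a := 0)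
          fun t ht => by nlinarith [hsign (-|t|), abs_pos.2 ht]
        simpa using this
      simpa [ψ] using le_antisymm (neg_nonneg.1 h2) h1
    have hfv : ∀ v : Fin 2 → ℝ, eval v p' = v 1 ^ 2 * eval v f := fun v => by
      rw [hev, ha, hb]; ring
    have hfpsd : IsPsd f := fun v => by
      have hline : Continuous fun t : ℝ => (![v 0, t] : Fin 2 → ℝ) := by fun_prop
      have key : ∀ t, t ≠ 0 → 0 ≤ eval ![v 0, t] f := fun t ht => by
        have h := hp'e ![v 0, t] ▸ hpsd (T ![v 0, t])
        rw [hfv] at h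
        simp at h
        nlinarith [pow_pos (abs_pos.2 ht) 2, sq_abs t]
      rcases eq_or_ne (v 1) 0 with h | h
      · have := nonneg_of_ne (f.continuous_eval.comp hline) key
        rwa [Function.comp_apply, show (![v 0, (0 : ℝ)] : Fin 2 → ℝ) = v from
          funext fun i => by fin_cases i <;> simp [h]] at this
      · have := key _ h
        rwa [show (![v 0, v 1] : Fin 2 → ℝ) = v from
          funext fun i => by fin_cases i <;> simp] at this
    have hf0 : f ≠ 0 := fun e => by
      obtain ⟨w, hw⟩ := exists_eval_ne_zero hp0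
      have h := hp'e (fun i => eval w (S i))
      rw [hfv, e, map_zero, mul_zero, show T (fun i => eval w (S i)) = w from funext fun i => by
        fin_cases i <;> simp [T, L, S] <;> field_simp <;> rw [hN] <;> ring] at h
      exact hw h.symm
    obtain ⟨q, hq, hq0, hle⟩ := dominates_two d f hfh hfpsd hf0
    refine ⟨X 1 * q, add_comm 1 d ▸ (isHomogeneous_X ℝ 1).mul hq,
      mul_ne_zero (X_ne_zero 1) hq0, fun x => ?_⟩
    rw [map_mul, eval_X, mul_pow, ← hp'e, hfv]
    exact mul_le_mul_of_nonneg_left (hle x) (sq_nonneg _)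

end Fermat.Agent.HilbertPsdSos
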