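import Mathlib

/-!
# Dominated squares

If every nonzero positive semidefinite form of degree `2 d` dominates a nonzero square of a form of
degree `d`, every such form is a sum of squares: subtract the largest multiple of that square and
the space of the forms bounded by multiples of the difference gets smaller.
-/

set_option autoImplicit false

noncomputable section

open MvPolynomial

namespace Fermat.Agent.HilbertPsdSos

/-- Nowhere negative. -/
def IsPsd {n : ℕ} (p : MvPolynomial (Fin n) ℝ) : Prop :=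
  ∀ x : Fin n → ℝ, 0 ≤ eval x p

/-- A sum of squares of forms of degree `d`. -/
def IsFormSos {n : ℕ} (d : ℕ) (p : MvPolynomial (Fin n) ℝ) : Prop :=
  ∃ (k : ℕ) (g : Fin k → MvPolynomial (Fin n) ℝ), (∀ i, (g i).IsHomogeneous d) ∧ p = ∑ i, g i ^ 2

/-- Every nonzero psd form of degree `2 d` dominates a nonzero square. -/
def Dominates (n d : ℕ) : Prop :=
  ∀ p : MvPolynomial (Fin n) ℝ, p.IsHomogeneous (2 * d) → IsPsd p → p ≠ 0 →
    ∃ q : MvPolynomial (Fin n) ℝ, q.IsHomogeneous d ∧ q ≠ 0 ∧ ∀ x, eval x q ^ 2 ≤ eval x p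

variable {n d : ℕ}

theorem exists_eval_ne_zero {p : MvPolynomial (Fin n) ℝ} (hp : p ≠ 0) : ∃ x, eval x p ≠ 0 := by
  by_contra! h
  exact hp (MvPolynomial.funext fun x => by rw [h, map_zero])

/-- The forms bounded by multiples of `p`. -/
def boundedBy (d : ℕ) (p : MvPolynomial (Fin n) ℝ) :
    Submodule ℝ (homogeneousSubmodule (Fin n) ℝ (2 * d)) where
  carrier := {r | ∃ C : ℝ, 0 ≤ C ∧ ∀ x, |eval x (r : MvPolynomial (Fin n) ℝ)| ≤ C * eval x p}
  add_mem' := by
    rintro r s ⟨C, hC, hr⟩ ⟨D, hD, hs⟩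
    refine ⟨C + D, add_nonneg hC hD, fun x => ?_⟩
    rw [Submodule.coe_add, map_add, add_mul]
    exact (abs_add_le _ _).trans (add_le_add (hr x) (hs x))
  zero_mem' := ⟨0, le_rfl, fun x => by simp⟩
  smul_mem' := by
    rintro c r ⟨C, hC, hr⟩
    refine ⟨|c| * C, mul_nonneg (abs_nonneg c) hC, fun x => ?_⟩
    rw [Submodule.coe_smul, smul_eval, abs_mul, mul_assoc]
    exact mul_le_mul_of_nonneg_left (hr x) (abs_nonneg c)

instance finite_forms (n m : ℕ) : Module.Finite ℝ (homogeneousSubmodule (Fin n) ℝ m) :=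
  Module.Finite.iff_fg.2 (homogeneousSubmodule_fg (Fin n) ℝ m)

/-- **Dominated squares give sums of squares.** -/
theorem isFormSos_of_dominates (hD : Dominates n d) : ∀ p : MvPolynomial (Fin n) ℝ,
    p.IsHomogeneous (2 * d) → IsPsd p → IsFormSos d p := by
  intro p
  induction hm : Module.finrank ℝ (boundedBy d p) using Nat.strong_induction_on generalizing p with
  | _ m ih =>
  intro hp hpsd
  by_cases h0 : p = 0
  · exact ⟨0, ![], fun i => i.elim0, by simp [h0]⟩
  obtain ⟨q, hq, hq0, hle⟩ := hD p hp hpsd h0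
  obtain ⟨x₀, hx₀⟩ := exists_eval_ne_zero hq0
  set T : Set ℝ := {t | ∀ x, t * eval x q ^ 2 ≤ eval x p} with hT
  have h1 : (1 : ℝ) ∈ T := fun x => by rw [one_mul]; exact hle x
  have hbdd : BddAbove T := ⟨eval x₀ p / eval x₀ q ^ 2, fun t ht =>
    (le_div_iff₀ (by positivity)).2 (ht x₀)⟩
  set t := sSup T
  have ht : t ∈ T := by
    refine IsClosed.csSup_mem ?_ ⟨1, h1⟩ hbdd
    rw [hT, Set.ofPred_forall]
    exact isClosed_iInter fun x => isClosed_le (by fun_prop) continuous_const
  have ht1 : 1 ≤ t := le_csSup hbdd h1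
  have hmax : ∀ u ∈ T, u ≤ t := fun u hu => le_csSup hbdd hu
  set p' := p - C t * q ^ 2 with hp'
  have hp'h : p'.IsHomogeneous (2 * d) := hp.sub ((mul_comm d 2 ▸ hq.pow 2).C_mul t)
  have hp'e : ∀ x, eval x p' = eval x p - t * eval x q ^ 2 := fun x => by simp [hp']
  have hp'psd : IsPsd p' := fun x => by rw [hp'e]; exact sub_nonneg.2 (ht x)
  set r : homogeneousSubmodule (Fin n) ℝ (2 * d) := ⟨q ^ 2, mul_comm d 2 ▸ hq.pow 2⟩
  have hlt : boundedBy d p' < boundedBy d p := by
    refine lt_of_le_of_ne (fun s ⟨C, hC, hs⟩ => ⟨C, hC, fun x => (hs x).trans ?_⟩) fun e => ?_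
    · refine mul_le_mul_of_nonneg_left ?_ hC
      rw [hp'e]
      nlinarith [sq_nonneg (eval x q)]
    · have hr : r ∈ boundedBy d p := ⟨1, zero_le_one, fun x => by
        show |eval x (q ^ 2)| ≤ _
        rw [map_pow, abs_pow, sq_abs, one_mul]
        exact hle x⟩
      rw [← e] at hr
      obtain ⟨C, hC, hr⟩ := hr
      have hC1 : 0 < C + 1 := by linarith
      have hmem : t + 1 / (C + 1) ∈ T := fun x => by
        have h := hr x
        change |eval x (q ^ 2)| ≤ _ at h
        rw [map_pow, abs_pow, sq_abs, hp'e] at h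
        have h2 : eval x q ^ 2 ≤ (C + 1) * (eval x p - t * eval x q ^ 2) := by nlinarith [ht x]
        have h3 : 1 / (C + 1) * eval x q ^ 2 ≤ eval x p - t * eval x q ^ 2 := by
          rw [div_mul_eq_mul_div, one_mul, div_le_iff₀ hC1]
          linarith
        linarith
      have := hmax _ hmem
      linarith [div_pos one_pos hC1]
  obtain ⟨k, g, hg, he⟩ := ih _ (hm ▸ Submodule.finrank_lt_finrank_of_lt hlt) p' rfl hp'h hp'psd
  refine ⟨k + 1, Fin.cons (C (Real.sqrt t) * q) g, Fin.cases (hq.C_mul _) hg, ?_⟩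
  rw [Fin.sum_univ_succ]
  simp only [Fin.cons_zero, Fin.cons_succ, ← he, hp', mul_pow, ← map_pow,
    Real.sq_sqrt (zero_le_one.trans ht1)]
  ring

/-- The values at a multiple of a point. -/
theorem eval_smul_point {m : ℕ} {p : MvPolynomial (Fin n) ℝ} (hp : p.IsHomogeneous m) (t : ℝ)
    (x : Fin n → ℝ) : eval (t • x) p = t ^ m * eval x p := by
  rw [eval_eq, eval_eq, Finset.mul_sum]
  refine Finset.sum_congr rfl fun s hs => ?_
  simp only [Pi.smul_apply, smul_eq_mul, mul_pow, Finset.prod_mul_distrib,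
    Finset.prod_pow_eq_pow_sum]
  rw [← hp.degree_eq_sum_deg_support hs]
  ring

/-- A form is bounded by a multiple of a positive definite one of the same degree. -/
theorem exists_mul_abs_le {m : ℕ} (hm : m ≠ 0) {f g : MvPolynomial (Fin n) ℝ}
    (hf : f.IsHomogeneous m) (hg : g.IsHomogeneous m) (hpd : ∀ x, x ≠ 0 → 0 < eval x f) :
    ∃ ε > 0, ∀ x, ε * |eval x g| ≤ eval x f := by
  have hc : ∀ h : MvPolynomial (Fin n) ℝ, Continuous fun x => eval x h := fun h => h.continuous_eval
  set K := Metric.sphere (0 : Fin n → ℝ) 1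
  have hK : IsCompact K := isCompact_sphere 0 1
  have hne : ∀ {x : Fin n → ℝ}, x ∈ K → x ≠ 0 := fun hx e => by simp [K, e] at hx
  obtain ⟨M, hM⟩ := hK.exists_bound_of_continuousOn (hc g).continuousOn
  obtain ⟨c, hcpos, hcle⟩ := hK.exists_forall_le' (hc f).continuousOn (a := 0)
    fun x hx => hpd x (hne hx)
  refine ⟨c / (|M| + 1), by positivity, fun x => ?_⟩
  rcases eq_or_ne x 0 with rfl | hx
  · have e : ∀ {h : MvPolynomial (Fin n) ℝ}, h.IsHomogeneous m → eval (0 : Fin n → ℝ) h = 0 :=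
      fun {h} hh => by
        have := eval_smul_point hh 0 0
        rwa [zero_smul, zero_pow hm, zero_mul] at this
    rw [e hf, e hg, abs_zero, mul_zero]
  have hnx : 0 < ‖x‖ := norm_pos_iff.2 hx
  set u := ‖x‖⁻¹ • x
  have hu : u ∈ K := by simp [K, u, norm_smul, hnx.ne']
  have e : x = ‖x‖ • u := by rw [smul_smul, mul_inv_cancel₀ hnx.ne', one_smul]
  rw [e, eval_smul_point hf, eval_smul_point hg, abs_mul, abs_pow, abs_norm, mul_left_comm]
  refine mul_le_mul_of_nonneg_left ?_ (pow_nonneg hnx.le _)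
  rw [div_mul_eq_mul_div, div_le_iff₀ (by positivity)]
  have h1 : |eval u g| ≤ |M| := (hM u hu).trans (le_abs_self M)
  nlinarith [hcle u hu, abs_nonneg (eval u g)]

/-- A substitution with a right inverse carries dominated squares back. -/
theorem dominated_of_subst {p : MvPolynomial (Fin n) ℝ} (S : Fin n → MvPolynomial (Fin n) ℝ)
    (hS : ∀ i, (S i).IsHomogeneous 1) (T : (Fin n → ℝ) → Fin n → ℝ)
    (hTS : ∀ v, T (fun i => eval v (S i)) = v) (hST : ∀ w, (fun i => eval (T w) (S i)) = w)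
    (h : ∃ q : MvPolynomial (Fin n) ℝ, q.IsHomogeneous d ∧ q ≠ 0 ∧
      ∀ x, eval x q ^ 2 ≤ eval (T x) p) :
    ∃ q : MvPolynomial (Fin n) ℝ, q.IsHomogeneous d ∧ q ≠ 0 ∧ ∀ x, eval x q ^ 2 ≤ eval x p := by
  obtain ⟨q, hq, hq0, hle⟩ := h
  have he : ∀ v, eval v (bind₁ S q) = eval (fun i => eval v (S i)) q := fun v =>
    DFunLike.congr_fun (ringHom_ext (f := (eval v).comp (bind₁ S).toRingHom)
      (g := eval fun i => eval v (S i)) (fun b => by simp) fun i => by simp) q
  refine ⟨bind₁ S q, one_mul d ▸ hq.aeval S hS, fun e => ?_, fun x => ?_⟩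
  · obtain ⟨w, hw⟩ := exists_eval_ne_zero hq0
    have := he (T w)
    rw [e, map_zero, hST] at this
    exact hw this.symm
  · rw [he]
    have := hle fun i => eval x (S i)
    rwa [hTS] at this

end Fermat.Agent.HilbertPsdSos
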