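import Fermat.Agent.HilbertPsdSos.Easy

/-!
# Tools for ternary quartics
-/

set_option autoImplicit false

noncomputable section

open MvPolynomial

namespace Fermat.Agent.HilbertPsdSos

/-- A nonzero square below `p`. -/
def Dominated {n : ℕ} (d : ℕ) (p : MvPolynomial (Fin n) ℝ) : Prop :=
  ∃ q : MvPolynomial (Fin n) ℝ, q.IsHomogeneous d ∧ q ≠ 0 ∧ ∀ x, eval x q ^ 2 ≤ eval x p

theorem ne_zero_of_eval {n : ℕ} {p : MvPolynomial (Fin n) ℝ} (x : Fin n → ℝ)
    (h : eval x p ≠ 0) : p ≠ 0 :=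
  fun e => h (by rw [e, map_zero])

/-- The nine exponents below a degree. -/
def quarticExp (i j : ℕ) : Fin 3 →₀ ℕ :=
  Finsupp.single 0 i + Finsupp.single 1 j + Finsupp.single 2 (4 - i - j)

theorem quarticExp_apply (i j : ℕ) :
    quarticExp i j 0 = i ∧ quarticExp i j 1 = j ∧ quarticExp i j 2 = 4 - i - j := by
  simp [quarticExp]

/-- A ternary quartic written out. -/
theorem exists_coeffs {p : MvPolynomial (Fin 3) ℝ} (hp : p.IsHomogeneous 4) :
    ∃ c : ℕ → ℕ → ℝ, ∀ x y z : ℝ, eval ![x, y, z] p =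
      c 0 0 * z ^ 4 + (c 1 0 * x + c 0 1 * y) * z ^ 3 +
      (c 2 0 * x ^ 2 + c 1 1 * x * y + c 0 2 * y ^ 2) * z ^ 2 +
      (c 3 0 * x ^ 3 + c 2 1 * x ^ 2 * y + c 1 2 * x * y ^ 2 + c 0 3 * y ^ 3) * z +
      (c 4 0 * x ^ 4 + c 3 1 * x ^ 3 * y + c 2 2 * x ^ 2 * y ^ 2 + c 1 3 * x * y ^ 3 +
        c 0 4 * y ^ 4) := by
  classical
  refine ⟨fun i j => coeff (quarticExp i j) p, fun x y z => ?_⟩
  set I : Finset (ℕ × ℕ) :=
    (Finset.range 5 ×ˢ Finset.range 5).filter fun a => a.1 + a.2 ≤ 4 with hI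
  have hsub : p.support ⊆ I.image fun a => quarticExp a.1 a.2 := fun e he => by
    have hdeg : e.degree = 4 := (hp.degree_eq_sum_deg_support he).symm
    rw [Finsupp.degree_eq_sum, Fin.sum_univ_three] at hdeg
    refine Finset.mem_image.2 ⟨(e 0, e 1), ?_, Finsupp.ext fun k => ?_⟩
    · simp only [hI, Finset.mem_filter, Finset.mem_product, Finset.mem_range]
      omega
    · obtain ⟨h0, h1, h2⟩ := quarticExp_apply (e 0) (e 1)
      fin_cases k
      · exact h0
      · exact h1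
      · exact h2.trans (by simp; omega)
  rw [eval_eq, Finset.sum_subset hsub fun e _ he => by rw [notMem_support_iff.1 he, zero_mul],
    Finset.sum_image fun a _ b _ e => by
      obtain ⟨ha0, ha1, -⟩ := quarticExp_apply a.1 a.2
      obtain ⟨hb0, hb1, -⟩ := quarticExp_apply b.1 b.2
      exact Prod.ext (ha0.symm.trans (DFunLike.congr_fun e 0 |>.trans hb0))
        (ha1.symm.trans (DFunLike.congr_fun e 1 |>.trans hb1))]
  have hterm : ∀ a : ℕ × ℕ, (∏ k ∈ (quarticExp a.1 a.2).support,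
      (![x, y, z] : Fin 3 → ℝ) k ^ (quarticExp a.1 a.2) k) =
        x ^ a.1 * y ^ a.2 * z ^ (4 - a.1 - a.2) := fun a => by
    obtain ⟨h0, h1, h2⟩ := quarticExp_apply a.1 a.2
    rw [← Finsupp.prod, Finsupp.prod_fintype _ _ (fun k => pow_zero _), Fin.prod_univ_three, h0,
      h1, h2]
    simp
  simp only [hterm]
  rw [hI, Finset.sum_filter, Finset.sum_product]
  simp [Finset.sum_range_succ]
  ring

/-- The linear coefficient of a sign-constant polynomial at a zero. -/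
theorem linear_coeff_eq_zero {b : ℝ} {g : ℝ → ℝ} (hg : Continuous g)
    (h : ∀ t, 0 ≤ t * (b + t * g t)) : b = 0 := by
  set ψ : ℝ → ℝ := fun t => b + t * g t
  have hψ : Continuous ψ := continuous_const.add (continuous_id.mul hg)
  have h1 : 0 ≤ ψ 0 := by
    have := nonneg_of_ne (φ := fun t => ψ |t|) (hψ.comp continuous_abs) (a := 0) fun t ht =>
      nonneg_of_mul_nonneg_right (h |t|) (abs_pos.2 ht)
    simpa using this
  have h2 : 0 ≤ -ψ 0 := by
    have := nonneg_of_ne (φ := fun t => -ψ (-|t|)) (hψ.comp continuous_abs.neg).neg (a := 0)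
      fun t ht => by nlinarith [h (-|t|), abs_pos.2 ht]
    simpa using this
  simpa [ψ] using le_antisymm (neg_nonneg.1 h2) h1

/-- A quadratic polynomial that is nowhere negative. -/
theorem quadratic_facts {A B E : ℝ} (h : ∀ z : ℝ, 0 ≤ A * z ^ 2 + 2 * B * z + E) :
    0 ≤ A ∧ 0 ≤ E ∧ B ^ 2 ≤ A * E := by
  refine ⟨?_, by simpa using h 0, ?_⟩
  · by_contra! hA
    set z := (2 * |B| + |E| + 1) / (-A) + 1 with hz
    have hz1 : 1 ≤ z := by
      have := div_nonneg (show (0:ℝ) ≤ 2 * |B| + |E| + 1 by positivity) (neg_nonneg.2 hA.le)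
      linarith
    have hz2 : (-A) * z = 2 * |B| + |E| + 1 + (-A) := by
      rw [hz, mul_add, mul_one, mul_div_cancel₀ _ (neg_ne_zero.2 hA.ne)]
    nlinarith [h z, le_abs_self B, le_abs_self E, mul_le_mul_of_nonneg_left hz1 (abs_nonneg E)]
  · have := discrim_le_zero (a := A) (b := 2 * B) (c := E) fun z => by
      have := h z
      rw [sq] at this
      linarith
    rw [discrim] at this
    nlinarith

/-- The linear substitution of a matrix. -/
def matrixSubst (M : Matrix (Fin 3) (Fin 3) ℝ) (i : Fin 3) : MvPolynomial (Fin 3) ℝ :=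
  ∑ j, C (M i j) * X j

theorem eval_matrixSubst (M : Matrix (Fin 3) (Fin 3) ℝ) (x : Fin 3 → ℝ) (i : Fin 3) :
    eval x (matrixSubst M i) = M.mulVec x i := by
  simp [matrixSubst, Matrix.mulVec, dotProduct]

theorem isHomogeneous_matrixSubst (M : Matrix (Fin 3) (Fin 3) ℝ) (i : Fin 3) :
    (matrixSubst M i).IsHomogeneous 1 :=
  IsHomogeneous.sum _ _ _ fun _ _ => isHomogeneous_C_mul_X _ _

theorem eval_bind₁_matrixSubst (M : Matrix (Fin 3) (Fin 3) ℝ) (p : MvPolynomial (Fin 3) ℝ)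
    (x : Fin 3 → ℝ) : eval x (bind₁ (matrixSubst M) p) = eval (M.mulVec x) p :=
  DFunLike.congr_fun (ringHom_ext (f := (eval x).comp (bind₁ (matrixSubst M)).toRingHom)
    (g := eval (M.mulVec x)) (fun b => by simp) fun i => by simp [eval_matrixSubst]) p

/-- Domination is unchanged by an invertible substitution. -/
theorem dominated_of_matrix {d : ℕ} {p : MvPolynomial (Fin 3) ℝ} (M : Matrix (Fin 3) (Fin 3) ℝ)
    (hM : M.det ≠ 0) (h : Dominated d (bind₁ (matrixSubst M) p)) : Dominated d p := by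
  obtain ⟨q, hq, hq0, hle⟩ := h
  have hu : IsUnit M.det := isUnit_iff_ne_zero.2 hM
  refine dominated_of_subst (matrixSubst M⁻¹) (isHomogeneous_matrixSubst _) M.mulVec (fun v => ?_)
    (fun w => ?_) ⟨q, hq, hq0, fun x => (hle x).trans (eval_bind₁_matrixSubst M p x).le⟩
  · simp only [eval_matrixSubst]
    rw [Matrix.mulVec_mulVec, Matrix.mul_nonsing_inv _ hu, Matrix.one_mulVec]
  · funext i
    rw [eval_matrixSubst, Matrix.mulVec_mulVec, Matrix.nonsing_inv_mul _ hu, Matrix.one_mulVec]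

theorem subst_facts {p : MvPolynomial (Fin 3) ℝ} (hp : p.IsHomogeneous 4) (hpsd : IsPsd p)
    (hp0 : p ≠ 0) (M : Matrix (Fin 3) (Fin 3) ℝ) (hM : M.det ≠ 0) :
    (bind₁ (matrixSubst M) p).IsHomogeneous 4 ∧ IsPsd (bind₁ (matrixSubst M) p) ∧
      bind₁ (matrixSubst M) p ≠ 0 := by
  refine ⟨one_mul 4 ▸ hp.aeval _ (isHomogeneous_matrixSubst M),
    fun x => by rw [eval_bind₁_matrixSubst]; exact hpsd _, ?_⟩
  obtain ⟨w, hw⟩ := exists_eval_ne_zero hp0
  refine ne_zero_of_eval (M⁻¹.mulVec w) ?_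
  rwa [eval_bind₁_matrixSubst, Matrix.mulVec_mulVec,
    Matrix.mul_nonsing_inv _ (isUnit_iff_ne_zero.2 hM), Matrix.one_mulVec]

end Fermat.Agent.HilbertPsdSos
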