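import Fermat.Agent.HilbertPsdSos.TwoZeros

/-!
# Ternary quartics

After Choi and Lam: a nonzero psd ternary quartic dominates the square of a quadratic form. If it
has a zero, it is `A z² + 2 B z + E` with binary forms `A`, `B`, `E` and `B² ≤ A E`; if `A` is
definite and `A E = B²` somewhere there is a second zero, and the same step finds the square.
-/

set_option autoImplicit false

noncomputable section

open MvPolynomial

namespace Fermat.Agent.HilbertPsdSos

variable {p : MvPolynomial (Fin 3) ℝ}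

/-- The rank one case: `A = a ℓ ²` and `B = ℓ G`. -/
theorem dominated_rank_one (hpsd : IsPsd p) {a : ℝ} (ha : 0 < a) (l m : ℝ) (hlm : l ≠ 0 ∨ m ≠ 0)
    (g₀ g₁ g₂ : ℝ) (E : ℝ → ℝ → ℝ) (hE : Continuous fun w : ℝ × ℝ => E w.1 w.2)
    (hp : ∀ x y z : ℝ, eval ![x, y, z] p = a * (l * x + m * y) ^ 2 * z ^ 2 +
      2 * ((l * x + m * y) * (g₀ * x ^ 2 + g₁ * x * y + g₂ * y ^ 2)) * z + E x y) :
    Dominated 2 p := by
  have hs : 0 < Real.sqrt a := Real.sqrt_pos.2 ha
  have hN : 0 < l ^ 2 + m ^ 2 := by rcases hlm with h | h <;> positivity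
  have key : ∀ x y : ℝ, (g₀ * x ^ 2 + g₁ * x * y + g₂ * y ^ 2) ^ 2 / a ≤ E x y := by
    intro x y
    set φ : ℝ → ℝ := fun t => E (x + t * l) (y + t * m) -
      (g₀ * (x + t * l) ^ 2 + g₁ * (x + t * l) * (y + t * m) + g₂ * (y + t * m) ^ 2) ^ 2 / a
    have hφ : Continuous φ :=
      (hE.comp (show Continuous fun t : ℝ => (x + t * l, y + t * m) by fun_prop)).sub (by fun_prop)
    have h0 : ∀ t, t ≠ -(l * x + m * y) / (l ^ 2 + m ^ 2) → 0 ≤ φ t := fun t ht => by
      have hl : l * (x + t * l) + m * (y + t * m) ≠ 0 := fun e => ht (by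
        rw [eq_div_iff hN.ne']; linarith)
      have h := (quadratic_facts fun z => (hp (x + t * l) (y + t * m) z) ▸ hpsd _).2.2
      have h' : (g₀ * (x + t * l) ^ 2 + g₁ * (x + t * l) * (y + t * m) +
          g₂ * (y + t * m) ^ 2) ^ 2 ≤ a * E (x + t * l) (y + t * m) :=
        le_of_mul_le_mul_left (a := (l * (x + t * l) + m * (y + t * m)) ^ 2) (by linarith)
          (by positivity)
      rw [sub_nonneg, div_le_iff₀ ha]
      linarith
    rcases eq_or_ne (0 : ℝ) (-(l * x + m * y) / (l ^ 2 + m ^ 2)) with e | e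
    · have := nonneg_of_ne hφ h0
      rw [← e] at this
      simpa [φ] using this
    · simpa [φ] using h0 0 e
  refine ⟨C (Real.sqrt a) * ((C l * X 0 + C m * X 1) * X 2) +
    C (Real.sqrt a)⁻¹ * (C g₀ * X 0 ^ 2 + C g₁ * (X 0 * X 1) + C g₂ * X 1 ^ 2), ?_, ?_, fun v => ?_⟩
  · have hxy : (X 0 * X 1 : MvPolynomial (Fin 3) ℝ).IsHomogeneous 2 :=
      (isHomogeneous_X ℝ 0).mul (isHomogeneous_X ℝ 1)
    exact ((((isHomogeneous_C_mul_X l 0).add (isHomogeneous_C_mul_X m 1)).mul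
      (isHomogeneous_X ℝ 2)).C_mul _).add ((((isHomogeneous_C_mul_X_pow g₀ 0 2).add
      (hxy.C_mul g₁)).add (isHomogeneous_C_mul_X_pow g₂ 1 2)).C_mul _)
  · intro e
    have h1 := congrArg (eval (![l, m, 1] : Fin 3 → ℝ)) e
    have h2 := congrArg (eval (![l, m, 0] : Fin 3 → ℝ)) e
    simp at h1 h2
    rcases h2 with h2 | h2
    · exact hs.ne' h2
    · rw [h2, mul_zero, add_zero, mul_eq_zero] at h1
      rcases h1 with h1 | h1
      · exact hs.ne' h1
      · nlinarith
  · obtain ⟨x, y, z, rfl⟩ : ∃ x y z : ℝ, v = ![x, y, z] :=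
      ⟨v 0, v 1, v 2, funext fun i => by fin_cases i <;> rfl⟩
    simp only [map_add, map_mul, map_pow, eval_C, eval_X, Matrix.cons_val_zero,
      Matrix.cons_val_one, Matrix.cons_val]
    rw [hp]
    have e : (Real.sqrt a * ((l * x + m * y) * z) +
        (Real.sqrt a)⁻¹ * (g₀ * x ^ 2 + g₁ * (x * y) + g₂ * y ^ 2)) ^ 2 =
        a * (l * x + m * y) ^ 2 * z ^ 2 +
        2 * ((l * x + m * y) * (g₀ * x ^ 2 + g₁ * x * y + g₂ * y ^ 2)) * z +
        (g₀ * x ^ 2 + g₁ * x * y + g₂ * y ^ 2) ^ 2 / a := by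
      have h1 : Real.sqrt a ^ 2 = a := Real.sq_sqrt ha.le
      have h2 : Real.sqrt a * (Real.sqrt a)⁻¹ = 1 := mul_inv_cancel₀ hs.ne'
      have h3 : (Real.sqrt a)⁻¹ ^ 2 = a⁻¹ := by rw [inv_pow, h1]
      linear_combination ((l * x + m * y) * z) ^ 2 * h1 +
        2 * ((l * x + m * y) * z) * (g₀ * x ^ 2 + g₁ * (x * y) + g₂ * y ^ 2) * h2 +
        (g₀ * x ^ 2 + g₁ * x * y + g₂ * y ^ 2) ^ 2 * h3
    rw [e]
    linarith [key x y]

/-- One zero, at `(0, 0, 1)`. -/
theorem dominated_one_zero (hp : p.IsHomogeneous 4) (hpsd : IsPsd p) (hp0 : p ≠ 0)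
    (hz : eval ![0, 0, 1] p = 0) : Dominated 2 p := by
  obtain ⟨c, hc⟩ := exists_coeffs hp
  have c00 : c 0 0 = 0 := by simpa [hc] using hz
  have c10 : c 1 0 = 0 := linear_coeff_eq_zero
    (g := fun t => c 2 0 + c 3 0 * t + c 4 0 * t ^ 2) (by fun_prop) fun t => by
      have := hpsd ![t, 0, 1]; rw [hc, c00] at this; linear_combination this
  have c01 : c 0 1 = 0 := linear_coeff_eq_zero
    (g := fun t => c 0 2 + c 0 3 * t + c 0 4 * t ^ 2) (by fun_prop) fun t => by
      have := hpsd ![0, t, 1]; rw [hc, c00] at this; linear_combination this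
  set A : ℝ → ℝ → ℝ := fun x y => c 2 0 * x ^ 2 + c 1 1 * x * y + c 0 2 * y ^ 2 with hAd
  set B : ℝ → ℝ → ℝ := fun x y =>
    (c 3 0 * x ^ 3 + c 2 1 * x ^ 2 * y + c 1 2 * x * y ^ 2 + c 0 3 * y ^ 3) / 2 with hBd
  set E : ℝ → ℝ → ℝ := fun x y => c 4 0 * x ^ 4 + c 3 1 * x ^ 3 * y + c 2 2 * x ^ 2 * y ^ 2 +
    c 1 3 * x * y ^ 3 + c 0 4 * y ^ 4 with hEd
  have hEc : Continuous fun w : ℝ × ℝ => E w.1 w.2 := by simp only [hEd]; fun_prop
  have hF : ∀ x y z : ℝ, eval ![x, y, z] p = A x y * z ^ 2 + 2 * B x y * z + E x y :=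
    fun x y z => by rw [hc, c00, c10, c01]; simp only [hAd, hBd, hEd]; ring
  have hfacts := fun x y => quadratic_facts fun z => hF x y z ▸ hpsd _
  by_cases hA0 : ∀ x y : ℝ, A x y = 0
  · -- the form is binary
    have hB0 : ∀ x y, B x y = 0 := fun x y => by
      have := (hfacts x y).2.2
      rw [hA0, zero_mul] at this
      nlinarith [sq_nonneg (B x y)]
    set eP : MvPolynomial (Fin 2) ℝ := C (c 4 0) * X 0 ^ 4 + C (c 3 1) * (X 0 ^ 3 * X 1) +
      C (c 2 2) * (X 0 ^ 2 * X 1 ^ 2) + C (c 1 3) * (X 0 * X 1 ^ 3) + C (c 0 4) * X 1 ^ 4 with heP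
    have hePe : ∀ v : Fin 2 → ℝ, eval v eP = E (v 0) (v 1) := fun v => by
      simp [heP, hEd]; ring
    have hePh : eP.IsHomogeneous (2 * 2) := by
      have x := fun (i : Fin 2) (k : ℕ) => isHomogeneous_X_pow (R := ℝ) i k
      exact ((((IsHomogeneous.C_mul (x 0 4) _).add
        (IsHomogeneous.C_mul ((x 0 3).mul (isHomogeneous_X ℝ 1)) _)).add
        (IsHomogeneous.C_mul ((x 0 2).mul (x 1 2)) _)).add
        (IsHomogeneous.C_mul ((isHomogeneous_X ℝ 0).mul (x 1 3)) _)).add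
        (IsHomogeneous.C_mul (x 1 4) _)
    obtain ⟨w, hw⟩ := exists_eval_ne_zero hp0
    have he0 : eP ≠ 0 := ne_zero_of_eval ![w 0, w 1] (by
      rw [hePe]
      intro e
      refine hw ?_
      rw [show w = ![w 0, w 1, w 2] from funext fun i => by fin_cases i <;> rfl, hF, hA0, hB0]
      simpa using e)
    obtain ⟨q, hq, hq0, hle⟩ := dominates_two 2 eP hePh
      (fun v => by rw [hePe]; exact (hfacts _ _).2.1) he0
    obtain ⟨u, hu⟩ := exists_eval_ne_zero hq0
    refine ⟨rename (![0, 1] : Fin 2 → Fin 3) q, hq.rename_isHomogeneous, ?_, fun v => ?_⟩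
    · refine ne_zero_of_eval ![u 0, u 1, 0] ?_
      rw [eval_rename]
      convert hu using 3
      funext i
      fin_cases i <;> rfl
    · have h := hle (v ∘ (![0, 1] : Fin 2 → Fin 3))
      rw [hePe] at h
      have hv : eval v p = E (v 0) (v 1) := by
        rw [show v = ![v 0, v 1, v 2] from funext fun i => by fin_cases i <;> rfl, hF, hA0, hB0]
        simp
      rw [eval_rename, hv]
      simpa using h
  by_cases hpd : ∀ x y : ℝ, (x ≠ 0 ∨ y ≠ 0) → 0 < A x y
  swap
  · -- rank one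
    rcases eq_or_ne (c 2 0) 0 with h20 | h20
    · have h11 : c 1 1 = 0 := by
        by_contra h
        have := (hfacts (-(c 0 2 + 1) / c 1 1) 1).1
        simp only [hAd, h20] at this
        rw [show c 1 1 * (-(c 0 2 + 1) / c 1 1) = -(c 0 2 + 1) by field_simp] at this
        linarith
      have h02 : 0 < c 0 2 := by
        refine lt_of_le_of_ne ?_ fun e => hA0 fun x y => by simp [hAd, h20, h11, ← e]
        simpa [hAd] using (hfacts 0 1).1
      have h30 : c 3 0 = 0 := by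
        have := (hfacts 1 0).2.2
        simp [hAd, hBd, h20] at this
        nlinarith [sq_nonneg (c 3 0)]
      exact dominated_rank_one hpsd h02 0 1 (Or.inr one_ne_zero) (c 2 1 / 2) (c 1 2 / 2) (c 0 3 / 2)
        E hEc fun x y z => by rw [hF]; simp only [hAd, hBd, h20, h11, h30]; ring
    have ha : 0 < c 2 0 :=
      lt_of_le_of_ne (by simpa [hAd] using (hfacts 1 0).1) h20.symm
    set k := c 1 1 / (2 * c 2 0) with hk
    set D := A (-k) 1 with hD
    have hAk : ∀ x y, A x y = c 2 0 * (x + k * y) ^ 2 + D * y ^ 2 := fun x y => by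
      simp only [hD, hAd, hk]; field_simp; ring
    have hD0 : D = 0 := by
      refine le_antisymm ?_ (hfacts _ _).1
      by_contra! hDpos
      refine hpd fun x y h => ?_
      rw [hAk]
      rcases eq_or_ne y 0 with rfl | hy
      · have hx := h.resolve_right fun h => h rfl
        simp only [mul_zero, add_zero, zero_pow two_ne_zero]
        positivity
      · positivity
    have hBk : B (-k) 1 = 0 := by
      have := (hfacts (-k) 1).2.2
      rw [← hD, hD0, zero_mul] at this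
      nlinarith [sq_nonneg (B (-k) 1)]
    refine dominated_rank_one hpsd ha 1 k (Or.inl one_ne_zero) (c 3 0 / 2)
      ((c 2 1 - c 3 0 * k) / 2) ((c 1 2 - c 2 1 * k + c 3 0 * k ^ 2) / 2) E hEc fun x y z => ?_
    rw [hF, hAk, hD0]
    simp only [hBd] at hBk ⊢
    linear_combination 2 * z * y ^ 3 * hBk
  -- `A` is definite
  set aP : MvPolynomial (Fin 2) ℝ :=
    C (c 2 0) * X 0 ^ 2 + C (c 1 1) * (X 0 * X 1) + C (c 0 2) * X 1 ^ 2 with haP
  have haPe : ∀ v : Fin 2 → ℝ, eval v aP = A (v 0) (v 1) := fun v => by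
    simp [haP, hAd]; ring
  by_cases hpos : ∀ x y : ℝ, (x ≠ 0 ∨ y ≠ 0) → B x y ^ 2 < A x y * E x y
  · set bP : MvPolynomial (Fin 2) ℝ := C (c 3 0 / 2) * X 0 ^ 3 + C (c 2 1 / 2) * (X 0 ^ 2 * X 1) +
      C (c 1 2 / 2) * (X 0 * X 1 ^ 2) + C (c 0 3 / 2) * X 1 ^ 3 with hbP
    set eP : MvPolynomial (Fin 2) ℝ := C (c 4 0) * X 0 ^ 4 + C (c 3 1) * (X 0 ^ 3 * X 1) +
      C (c 2 2) * (X 0 ^ 2 * X 1 ^ 2) + C (c 1 3) * (X 0 * X 1 ^ 3) + C (c 0 4) * X 1 ^ 4 with heP
    have x := fun (i : Fin 2) (k : ℕ) => isHomogeneous_X_pow (R := ℝ) i k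
    have haPh : aP.IsHomogeneous 2 := ((IsHomogeneous.C_mul (x 0 2) _).add
      (IsHomogeneous.C_mul ((isHomogeneous_X ℝ 0).mul (isHomogeneous_X ℝ 1)) _)).add
      (IsHomogeneous.C_mul (x 1 2) _)
    have hbPh : bP.IsHomogeneous 3 := (((IsHomogeneous.C_mul (x 0 3) _).add
      (IsHomogeneous.C_mul ((x 0 2).mul (isHomogeneous_X ℝ 1)) _)).add
      (IsHomogeneous.C_mul ((isHomogeneous_X ℝ 0).mul (x 1 2)) _)).add
      (IsHomogeneous.C_mul (x 1 3) _)
    have hePh : eP.IsHomogeneous 4 := ((((IsHomogeneous.C_mul (x 0 4) _).add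
      (IsHomogeneous.C_mul ((x 0 3).mul (isHomogeneous_X ℝ 1)) _)).add
      (IsHomogeneous.C_mul ((x 0 2).mul (x 1 2)) _)).add
      (IsHomogeneous.C_mul ((isHomogeneous_X ℝ 0).mul (x 1 3)) _)).add
      (IsHomogeneous.C_mul (x 1 4) _)
    obtain ⟨ε, hε, h1⟩ := exists_mul_abs_le (m := 6) (by norm_num) (f := aP * eP - bP ^ 2)
      (g := aP ^ 3) ((haPh.mul hePh).sub (hbPh.pow 2)) (haPh.pow 3) fun v hv => by
        have : eval v (aP * eP - bP ^ 2) =
            A (v 0) (v 1) * E (v 0) (v 1) - B (v 0) (v 1) ^ 2 := by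
          simp [haP, hbP, heP, hAd, hBd, hEd]; ring
        rw [this, sub_pos]
        refine hpos _ _ ?_
        by_contra! h
        exact hv (funext fun i => by fin_cases i; exacts [h.1, h.2])
    set q : MvPolynomial (Fin 3) ℝ := C (Real.sqrt ε) * rename (![0, 1] : Fin 2 → Fin 3) aP with hq
    have hqe : ∀ x y z : ℝ, eval ![x, y, z] q = Real.sqrt ε * A x y := fun x y z => by
      rw [hq, map_mul, eval_C, eval_rename, haPe]
      simp
    refine ⟨q, (haPh.rename_isHomogeneous).C_mul _, ne_zero_of_eval ![1, 0, 0] ?_, fun v => ?_⟩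
    · rw [hqe]
      exact mul_ne_zero (Real.sqrt_pos.2 hε).ne' (hpd 1 0 (Or.inl one_ne_zero)).ne'
    obtain ⟨x, y, z, rfl⟩ : ∃ x y z : ℝ, v = ![x, y, z] :=
      ⟨v 0, v 1, v 2, funext fun i => by fin_cases i <;> rfl⟩
    rw [hqe, mul_pow, Real.sq_sqrt hε.le]
    by_cases hxy : x ≠ 0 ∨ y ≠ 0
    swap
    · push Not at hxy
      obtain ⟨rfl, rfl⟩ := hxy
      simpa [hAd] using hpsd ![0, 0, z]
    have hApos := hpd x y hxy
    have e1 := h1 ![x, y]
    rw [map_sub, map_mul, map_pow, map_pow, haPe] at e1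
    have eb : eval ![x, y] bP = B x y := by simp [hbP, hBd]; ring
    have ee : eval ![x, y] eP = E x y := by simp [heP, hEd]; ring
    rw [eb, ee] at e1
    simp only [Matrix.cons_val_zero, Matrix.cons_val_one] at e1
    rw [abs_of_pos (pow_pos hApos 3)] at e1
    refine le_of_mul_le_mul_right ?_ hApos
    rw [hF]
    nlinarith [sq_nonneg (A x y * z + B x y)]
  push Not at hpos
  obtain ⟨s, t, hst, hle⟩ := hpos
  have hN : 0 < s ^ 2 + t ^ 2 := by rcases hst with h | h <;> positivity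
  set w := -(B s t / A s t) with hw
  have hApos := hpd s t hst
  have hzero : eval ![s, t, w] p = 0 := by
    have : A s t * E s t = B s t ^ 2 := le_antisymm hle (hfacts s t).2.2
    rw [hF, hw]
    field_simp
    linarith
  set M : Matrix (Fin 3) (Fin 3) ℝ := !![s, -t, 0; t, s, 0; w, 0, 1] with hM
  have hdet : M.det ≠ 0 := by
    have : M.det = s ^ 2 + t ^ 2 := by simp [hM, Matrix.det_fin_three]; ring
    rw [this]; exact hN.ne'
  have hmul : ∀ x y z : ℝ, M.mulVec ![x, y, z] = ![s * x - t * y, t * x + s * y, w * x + z] :=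
    fun x y z => by
      funext i
      fin_cases i <;> simp [hM, Matrix.mulVec, dotProduct, Fin.sum_univ_three] <;> ring
  obtain ⟨hp', hpsd', -⟩ := subst_facts hp hpsd hp0 M hdet
  refine dominated_of_matrix M hdet (dominated_two_zeros hp' hpsd' ?_ ?_ fun x y hxy => ?_)
  · rw [eval_bind₁_matrixSubst, hmul]
    simpa using hz
  · rw [eval_bind₁_matrixSubst, hmul]
    simpa using hzero
  · simp only [eval_bind₁_matrixSubst, hmul, hF]
    have : 0 < A (s * x - t * y) (t * x + s * y) := hpd _ _ (by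
      by_contra! h
      have hx : (s ^ 2 + t ^ 2) * x = 0 := by linear_combination s * h.1 + t * h.2
      have hy : (s ^ 2 + t ^ 2) * y = 0 := by linear_combination s * h.2 - t * h.1
      rcases hxy with h' | h'
      · exact h' ((mul_eq_zero.1 hx).resolve_left hN.ne')
      · exact h' ((mul_eq_zero.1 hy).resolve_left hN.ne'))
    nlinarith

/-- **Ternary quartics**: a nonzero psd one dominates the square of a quadratic form. -/
theorem dominates_three_two : Dominates 3 2 := by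
  intro p hp hpsd hp0
  by_cases hpd : ∀ v, v ≠ 0 → 0 < eval v p
  · exact dominated_of_definite (by norm_num) two_ne_zero hp hpd
  push Not at hpd
  obtain ⟨v, hv, hle⟩ := hpd
  have hv0 : eval v p = 0 := le_antisymm hle (hpsd v)
  obtain ⟨M, hdet, hcol⟩ : ∃ M : Matrix (Fin 3) (Fin 3) ℝ, M.det ≠ 0 ∧
      M.mulVec ![0, 0, 1] = v := by
    by_cases h2 : v 2 ≠ 0
    · refine ⟨!![1, 0, v 0; 0, 1, v 1; 0, 0, v 2], by simp [Matrix.det_fin_three, h2], ?_⟩
      funext i
      fin_cases i <;> simp [Matrix.mulVec, dotProduct, Fin.sum_univ_three]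
    push Not at h2
    by_cases h0 : v 0 ≠ 0
    · refine ⟨!![0, 0, v 0; 1, 0, v 1; 0, 1, v 2], by simp [Matrix.det_fin_three, h0], ?_⟩
      funext i
      fin_cases i <;> simp [Matrix.mulVec, dotProduct, Fin.sum_univ_three]
    push Not at h0
    have h1 : v 1 ≠ 0 := fun h1 => hv (funext fun i => by fin_cases i; exacts [h0, h1, h2])
    refine ⟨!![1, 0, v 0; 0, 0, v 1; 0, 1, v 2], by simp [Matrix.det_fin_three, h1], ?_⟩
    funext i
    fin_cases i <;> simp [Matrix.mulVec, dotProduct, Fin.sum_univ_three]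
  obtain ⟨hp', hpsd', hp0'⟩ := subst_facts hp hpsd hp0 M hdet
  refine dominated_of_matrix M hdet (dominated_one_zero hp' hpsd' hp0' ?_)
  rw [eval_bind₁_matrixSubst, hcol]
  exact hv0

end Fermat.Agent.HilbertPsdSos
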