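import Fermat.Agent.HilbertPsdSos.Forms
import Fermat.Agent.HilbertSeventeen.Motzkin

/-!
# Two squares

A nowhere negative real polynomial in one variable is a sum of two squares; so is a psd binary
form, with squares of forms.
-/

set_option autoImplicit false

noncomputable section

namespace Fermat.Agent.HilbertPsdSos

open Polynomial

/-- The identity of Brahmagupta, for existence. -/
theorem two_squares_mul {R : Type*} [CommRing R] {p q : R} (hp : ∃ a b, p = a ^ 2 + b ^ 2)
    (hq : ∃ a b, q = a ^ 2 + b ^ 2) : ∃ a b, p * q = a ^ 2 + b ^ 2 := by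
  obtain ⟨a, b, rfl⟩ := hp
  obtain ⟨c, e, rfl⟩ := hq
  exact ⟨a * c - b * e, a * e + b * c, by ring⟩

/-- A nowhere negative real polynomial with a zero has a double zero there. -/
theorem exists_eq_sq_mul {p : ℝ[X]} (hp : ∀ x, 0 ≤ p.eval x) {r : ℝ} (hr : p.IsRoot r) :
    ∃ q : ℝ[X], p = (X - C r) ^ 2 * q := by
  obtain ⟨q₁, hq₁⟩ := dvd_iff_isRoot.2 hr
  have hmin : IsLocalMin (fun x => p.eval x) r :=
    Filter.Eventually.of_forall fun x => by simp only [hr.eq_zero]; exact hp x
  have hd := hmin.hasDerivAt_eq_zero (p.hasDerivAt r)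
  rw [hq₁] at hd
  simp at hd
  obtain ⟨q, hq⟩ := dvd_iff_isRoot.2 (show q₁.IsRoot r from hd)
  exact ⟨q, by rw [hq₁, hq]; ring⟩

/-- An irreducible monic quadratic is a sum of two squares. -/
theorem two_squares_of_quadratic {g : ℝ[X]} (hm : g.Monic) (h2 : g.natDegree = 2)
    (hroot : ∀ x, g.eval x ≠ 0) :
    (∀ x, 0 < g.eval x) ∧ ∃ a b, g = a ^ 2 + b ^ 2 := by
  have e : g = (X + C (g.coeff 1 / 2)) ^ 2 + C (g.coeff 0 - (g.coeff 1 / 2) ^ 2) := by
    have h2' : g.coeff 2 = 1 := h2 ▸ hm.coeff_natDegree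
    conv_lhs => rw [g.as_sum_range_C_mul_X_pow' (n := 3) (by omega)]
    simp [Finset.sum_range_succ, h2']
    ring_nf
    rw [show (C (g.coeff 1 * (1 / 2)) : ℝ[X]) = C (g.coeff 1) * C (1 / 2) from map_mul _ _ _]
    have : (2 : ℝ[X]) * C (1 / 2) = 1 := by
      rw [← map_ofNat C, ← map_mul]; norm_num
    linear_combination (-(C (g.coeff 1) * X)) * this
  set s := g.coeff 1 / 2
  set t := g.coeff 0 - s ^ 2
  have ht : 0 < t := by
    by_contra! h
    refine hroot (-s + Real.sqrt (-t)) ?_
    rw [e]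
    simp only [eval_add, eval_pow, eval_X, eval_C]
    rw [show -s + Real.sqrt (-t) + s = Real.sqrt (-t) by ring, Real.sq_sqrt (by linarith),
      neg_add_cancel]
  refine ⟨fun x => ?_, X + C s, C (Real.sqrt t), by rw [← map_pow, Real.sq_sqrt ht.le]; exact e⟩
  rw [e]
  simp only [eval_add, eval_pow, eval_X, eval_C]
  positivity

/-- **Nowhere negative polynomials are sums of two squares.** -/
theorem two_squares_of_nonneg (p : ℝ[X]) (hp : ∀ x, 0 ≤ p.eval x) :
    ∃ a b, p = a ^ 2 + b ^ 2 := by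
  induction hn : p.natDegree using Nat.strong_induction_on generalizing p with
  | _ m ih =>
  rcases Nat.eq_zero_or_pos m with rfl | hm
  · rw [eq_C_of_natDegree_eq_zero hn] at hp ⊢
    refine ⟨C (Real.sqrt (p.coeff 0)), 0, ?_⟩
    rw [← map_pow, Real.sq_sqrt (by simpa using hp 0)]
    ring
  have hp0 : p ≠ 0 := fun e => by simp [e] at hn; omega
  -- peel off a square or a positive quadratic
  obtain ⟨g, q, rfl, hg, hgd, hgs⟩ : ∃ g q, p = g * q ∧ (∀ᶠ x in Filter.cofinite, 0 < g.eval x) ∧
      0 < g.natDegree ∧ ∃ a b, g = a ^ 2 + b ^ 2 := by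
    by_cases hr : ∃ r, p.IsRoot r
    · obtain ⟨r, hr⟩ := hr
      obtain ⟨q, hq⟩ := exists_eq_sq_mul hp hr
      refine ⟨(X - C r) ^ 2, q, hq, ?_, by simp, X - C r, 0, by ring⟩
      refine (Set.finite_singleton r).subset fun x hx => ?_
      by_contra hne
      exact hx (by
        simp only [Set.mem_singleton_iff] at hne
        have := sub_ne_zero.2 hne
        simp; positivity)
    · push Not at hr
      obtain ⟨g, hgm, hgi, q, hq⟩ := p.exists_monic_irreducible_factor
        (not_isUnit_of_natDegree_pos p (hn ▸ hm))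
      have hroot : ∀ x, g.eval x ≠ 0 := fun x hx => hr x (by
        simp [IsRoot, hq, hx])
      have h2 : g.natDegree = 2 := by
        have h1 := hgi.natDegree_pos
        have h3 := hgi.natDegree_le_two
        by_contra h
        obtain ⟨x, hx⟩ := exists_root_of_degree_eq_one
          ((degree_eq_iff_natDegree_eq hgm.ne_zero).2 (show g.natDegree = 1 by omega))
        exact hroot x hx
      obtain ⟨hpos, hs⟩ := two_squares_of_quadratic hgm h2 hroot
      exact ⟨g, q, hq, Filter.Eventually.of_forall hpos, by omega, hs⟩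
  obtain ⟨hg0, hq0⟩ := mul_ne_zero_iff.1 hp0
  have hqpos : ∀ x, 0 ≤ q.eval x := fun x => by
    have hd : Dense {y | 0 ≤ q.eval y} := by
      refine Dense.mono (fun y hy => ?_)
        (Dense.sdiff_finite dense_univ (Filter.eventually_cofinite.1 hg))
      have h := hp y
      rw [eval_mul] at h
      exact nonneg_of_mul_nonneg_right h (not_not.1 hy.2)
    exact (isClosed_le (f := fun _ => (0 : ℝ)) continuous_const q.continuous).closure_subset (hd x)
  obtain ⟨a, b, e⟩ := ih q.natDegree (by rw [← hn, natDegree_mul hg0 hq0]; omega) q hqpos rfl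
  exact two_squares_mul hgs ⟨a, b, e⟩

/-- With the degrees. -/
theorem two_squares_of_nonneg_natDegree_le {p : ℝ[X]} (hp : ∀ x, 0 ≤ p.eval x) {d : ℕ}
    (hd : p.natDegree ≤ 2 * d) :
    ∃ a b, p = a ^ 2 + b ^ 2 ∧ a.natDegree ≤ d ∧ b.natDegree ≤ d := by
  obtain ⟨a, b, e⟩ := two_squares_of_nonneg p hp
  have h := HilbertSeventeen.natDegree_le_of_sum_sq ![a, b]
    (P := p) (by simp [Fin.sum_univ_two, e, sq]) hd
  exact ⟨a, b, e, h 0, h 1⟩

/-- **Psd binary forms are sums of two squares of forms.** -/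
theorem two_squares_of_isPsd_binary {d : ℕ} {p : MvPolynomial (Fin 2) ℝ}
    (hp : p.IsHomogeneous (2 * d)) (hpsd : IsPsd p) :
    ∃ f g : MvPolynomial (Fin 2) ℝ, f.IsHomogeneous d ∧ g.IsHomogeneous d ∧
      p = f ^ 2 + g ^ 2 := by
  set u : ℝ[X] := MvPolynomial.aeval ![X, 1] p with hu
  have hu0 : ∀ t, u.eval t = MvPolynomial.eval ![t, 1] p := fun t =>
    DFunLike.congr_fun (MvPolynomial.ringHom_ext
      (f := (evalRingHom t).comp (MvPolynomial.aeval ![X, (1 : ℝ[X])]).toRingHom)
      (g := MvPolynomial.eval ![t, 1]) (fun c => by simp) fun i => by fin_cases i <;> simp) p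
  have hdeg : u.natDegree ≤ 2 * d := by
    rw [hu, p.as_sum, map_sum]
    refine natDegree_sum_le_of_forall_le _ _ fun s hs => ?_
    rw [MvPolynomial.aeval_monomial, Finsupp.prod_fintype _ _ (fun _ => pow_zero _),
      Fin.prod_univ_two, ← C_eq_algebraMap]
    have := hp.degree_eq_sum_deg_support hs
    rw [← Finsupp.degree_apply, Finsupp.degree_eq_sum, Fin.sum_univ_two] at this
    simp
    exact (natDegree_C_mul_X_pow_le _ _).trans (by omega)
  obtain ⟨a, b, e, ha, hb⟩ := two_squares_of_nonneg_natDegree_le (fun t => (hu0 t) ▸ hpsd _) hdeg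
  refine ⟨_, _, isHomogeneous_homogenize (n := d) a, isHomogeneous_homogenize (n := d) b, ?_⟩
  rw [← homogenize_eq_of_isHomogeneous hp hu.symm, e, homogenize_add, sq, sq, sq, sq, two_mul,
    homogenize_mul _ _ ha ha, homogenize_mul _ _ hb hb]

end Fermat.Agent.HilbertPsdSos
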