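import Fermat.Agent.HilbertPsdSos.QuarticTools

/-!
# Quartics with two zeros

`A z² + 2 y G z + y² H` with binary quadratic forms, `A` definite, dominates a square.
-/

set_option autoImplicit false

noncomputable section

open MvPolynomial

namespace Fermat.Agent.HilbertPsdSos

/-- A binary quadratic form. -/
def quad (a b c x y : ℝ) : ℝ :=
  a * x ^ 2 + b * x * y + c * y ^ 2

/-- The same as a polynomial. -/
def quadPoly (a b c : ℝ) : MvPolynomial (Fin 2) ℝ :=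
  C a * X 0 ^ 2 + C b * (X 0 * X 1) + C c * X 1 ^ 2

theorem isHomogeneous_quadPoly (a b c : ℝ) : (quadPoly a b c).IsHomogeneous 2 :=
  ((isHomogeneous_C_mul_X_pow a 0 2).add
    (IsHomogeneous.C_mul ((isHomogeneous_X ℝ 0).mul (isHomogeneous_X ℝ 1)) b)).add
    (isHomogeneous_C_mul_X_pow c 1 2)

theorem eval_quadPoly (a b c : ℝ) (v : Fin 2 → ℝ) :
    eval v (quadPoly a b c) = quad a b c (v 0) (v 1) := by
  simp [quadPoly, quad]; ring

theorem ne_zero_pair {v : Fin 2 → ℝ} (hv : v ≠ 0) : v 0 ≠ 0 ∨ v 1 ≠ 0 := by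
  by_contra! h
  exact hv (funext fun i => by fin_cases i; exacts [h.1, h.2])

variable {a₀ a₁ a₂ g₀ g₁ g₂ h₀ h₁ h₂ : ℝ} {p : MvPolynomial (Fin 3) ℝ}

/-- Without a further zero. -/
theorem dominated_pencil (hpsd : IsPsd p)
    (hA : ∀ x y, x ≠ 0 ∨ y ≠ 0 → 0 < quad a₀ a₁ a₂ x y)
    (hpos : ∀ x y, x ≠ 0 ∨ y ≠ 0 →
      quad g₀ g₁ g₂ x y ^ 2 < quad a₀ a₁ a₂ x y * quad h₀ h₁ h₂ x y)
    (hF : ∀ x y z : ℝ, eval ![x, y, z] p =
      quad a₀ a₁ a₂ x y * z ^ 2 + 2 * (y * quad g₀ g₁ g₂ x y) * z + y ^ 2 * quad h₀ h₁ h₂ x y) :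
    Dominated 2 p := by
  have haP := isHomogeneous_quadPoly a₀ a₁ a₂
  obtain ⟨ε, hε, h1⟩ := exists_mul_abs_le (m := 4) (by norm_num)
    (f := quadPoly a₀ a₁ a₂ * quadPoly h₀ h₁ h₂ - quadPoly g₀ g₁ g₂ ^ 2)
    (g := quadPoly a₀ a₁ a₂ ^ 2)
    ((haP.mul (isHomogeneous_quadPoly _ _ _)).sub ((isHomogeneous_quadPoly _ _ _).pow 2))
    (haP.pow 2) fun v hv => by
      rw [map_sub, map_mul, map_pow, eval_quadPoly, eval_quadPoly, eval_quadPoly, sub_pos]
      exact hpos _ _ (ne_zero_pair hv)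
  obtain ⟨δ, hδ, h2⟩ := exists_mul_abs_le (m := 2) two_ne_zero (f := quadPoly a₀ a₁ a₂)
    (g := (X 1 ^ 2 : MvPolynomial (Fin 2) ℝ)) haP (isHomogeneous_X_pow 1 2)
    fun v hv => by rw [eval_quadPoly]; exact hA _ _ (ne_zero_pair hv)
  have hs : 0 < Real.sqrt (ε * δ) := Real.sqrt_pos.2 (mul_pos hε hδ)
  refine ⟨C (Real.sqrt (ε * δ)) * X 1 ^ 2, isHomogeneous_C_mul_X_pow _ _ _,
    ne_zero_of_eval ![0, 1, 0] (by simp [hs.ne']), fun v => ?_⟩
  obtain ⟨x, y, z, rfl⟩ : ∃ x y z : ℝ, v = ![x, y, z] :=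
    ⟨v 0, v 1, v 2, funext fun i => by fin_cases i <;> rfl⟩
  simp only [map_mul, map_pow, eval_C, eval_X, Matrix.cons_val_one, Matrix.cons_val_zero]
  rw [mul_pow, Real.sq_sqrt (mul_pos hε hδ).le]
  rcases eq_or_ne y 0 with rfl | hy
  · simpa using hpsd ![x, 0, z]
  have hApos := hA x y (Or.inr hy)
  have e1 := h1 ![x, y]
  have e2 := h2 ![x, y]
  rw [map_sub, map_mul, map_pow, map_pow, eval_quadPoly, eval_quadPoly, eval_quadPoly,
    abs_of_nonneg (sq_nonneg _)] at e1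
  rw [eval_quadPoly, map_pow, eval_X, abs_of_nonneg (sq_nonneg _)] at e2
  simp only [Matrix.cons_val_zero, Matrix.cons_val_one] at e1 e2
  have e4 : ε * quad a₀ a₁ a₂ x y * y ^ 2 ≤ eval ![x, y, z] p := by
    refine le_of_mul_le_mul_right ?_ hApos
    rw [hF]
    nlinarith [mul_le_mul_of_nonneg_left e1 (sq_nonneg y),
      sq_nonneg (quad a₀ a₁ a₂ x y * z + y * quad g₀ g₁ g₂ x y)]
  nlinarith [mul_le_mul_of_nonneg_left e2 (mul_nonneg hε.le (sq_nonneg y))]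

/-- The form `-t x + s y`, normalised at `(-t, s)`. -/
def ellForm (s t x y : ℝ) : ℝ :=
  (s * y - t * x) / (s ^ 2 + t ^ 2)

/-- A quadratic form in the frame of `(s, t)` and `(-t, s)`. -/
theorem quad_frame (a b c s t x y : ℝ) (hN : s ^ 2 + t ^ 2 ≠ 0) :
    quad a b c x y = ((s * x + t * y) / (s ^ 2 + t ^ 2)) ^ 2 * quad a b c s t +
      (s * x + t * y) / (s ^ 2 + t ^ 2) * ellForm s t x y *
        (quad a b c (s - t) (t + s) - quad a b c s t - quad a b c (-t) s) +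
      ellForm s t x y ^ 2 * quad a b c (-t) s := by
  simp only [quad, ellForm]
  field_simp
  ring

/-- With a further zero at `(s, t)`. -/
theorem dominated_degenerate {lam s t : ℝ} (hst : s ≠ 0 ∨ t ≠ 0)
    (hA : ∀ x y, x ≠ 0 ∨ y ≠ 0 → 0 < quad a₀ a₁ a₂ x y)
    (hE : ∀ x y, quad g₀ g₁ g₂ x y ^ 2 ≤ quad a₀ a₁ a₂ x y * quad h₀ h₁ h₂ x y)
    (hH : ∀ x y, 0 ≤ quad h₀ h₁ h₂ x y) (hGr : quad g₀ g₁ g₂ s t = 0)
    (hHr : quad h₀ h₁ h₂ s t = 0)
    (hF : ∀ x y z : ℝ, eval ![x, y, z] p = quad a₀ a₁ a₂ x y * (z - lam * y) ^ 2 +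
      2 * (y * quad g₀ g₁ g₂ x y) * (z - lam * y) + y ^ 2 * quad h₀ h₁ h₂ x y) :
    Dominated 2 p := by
  have hN : 0 < s ^ 2 + t ^ 2 := by rcases hst with h | h <;> positivity
  have hB : quad h₀ h₁ h₂ (s - t) (t + s) - quad h₀ h₁ h₂ s t - quad h₀ h₁ h₂ (-t) s = 0 :=
    linear_coeff_eq_zero (g := fun _ => quad h₀ h₁ h₂ (-t) s) continuous_const fun τ => by
      have := hH (s - τ * t) (t + τ * s)
      simp only [quad] at this hHr ⊢
      nlinarith
  set cH := quad h₀ h₁ h₂ (-t) s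
  have hHell : ∀ x y, quad h₀ h₁ h₂ x y = cH * ellForm s t x y ^ 2 := fun x y => by
    have e := quad_frame h₀ h₁ h₂ s t x y hN.ne'
    linear_combination e + ((s * x + t * y) / (s ^ 2 + t ^ 2)) ^ 2 * hHr +
      (s * x + t * y) / (s ^ 2 + t ^ 2) * ellForm s t x y * hB
  set polG := quad g₀ g₁ g₂ (s - t) (t + s) - quad g₀ g₁ g₂ s t - quad g₀ g₁ g₂ (-t) s
  set mm : ℝ → ℝ → ℝ := fun x y => polG * ((s * x + t * y) / (s ^ 2 + t ^ 2)) +
    quad g₀ g₁ g₂ (-t) s * ellForm s t x y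
  have hGell : ∀ x y, quad g₀ g₁ g₂ x y = ellForm s t x y * mm x y := fun x y => by
    rw [quad_frame g₀ g₁ g₂ s t x y hN.ne', hGr]
    simp only [mm, polG, hGr]
    ring
  rcases (hH (-t) s).eq_or_lt with hc0 | hcpos
  · have hzero : ∀ x y, quad g₀ g₁ g₂ x y = 0 := fun x y => by
      have h := hE x y
      rw [hHell, show cH = 0 from hc0.symm] at h
      nlinarith [sq_nonneg (quad g₀ g₁ g₂ x y)]
    obtain ⟨δ, hδ, h2⟩ := exists_mul_abs_le (m := 2) two_ne_zero (f := quadPoly a₀ a₁ a₂)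
      (g := (X 0 ^ 2 : MvPolynomial (Fin 2) ℝ)) (isHomogeneous_quadPoly _ _ _)
      (isHomogeneous_X_pow 0 2) fun v hv => by
        rw [eval_quadPoly]; exact hA _ _ (ne_zero_pair hv)
    refine ⟨C (Real.sqrt δ) * (X 0 * (X 2 - C lam * X 1)),
      IsHomogeneous.C_mul ((isHomogeneous_X ℝ 0).mul
        ((isHomogeneous_X ℝ 2).sub (isHomogeneous_C_mul_X _ _))) _,
      ne_zero_of_eval ![1, 0, 1] (by simp [(Real.sqrt_pos.2 hδ).ne']), fun v => ?_⟩
    obtain ⟨x, y, z, rfl⟩ : ∃ x y z : ℝ, v = ![x, y, z] :=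
      ⟨v 0, v 1, v 2, funext fun i => by fin_cases i <;> rfl⟩
    simp only [map_mul, map_sub, eval_C, eval_X, Matrix.cons_val_zero, Matrix.cons_val_one,
      Matrix.cons_val]
    have e := h2 ![x, y]
    rw [eval_quadPoly, map_pow, eval_X, abs_of_nonneg (sq_nonneg _)] at e
    simp only [Matrix.cons_val_zero, Matrix.cons_val_one] at e
    rw [hF, hzero, hHell, show cH = 0 from hc0.symm, mul_zero, mul_zero, zero_mul, zero_mul,
      mul_zero, add_zero, add_zero, mul_pow, mul_pow, Real.sq_sqrt hδ.le, ← mul_assoc]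
    exact mul_le_mul_of_nonneg_right e (sq_nonneg _)
  · have hres : ∀ x y, mm x y ^ 2 ≤ cH * quad a₀ a₁ a₂ x y := fun x y => by
      set φ : ℝ → ℝ := fun u => cH * quad a₀ a₁ a₂ (x - u * t) (y + u * s) -
        mm (x - u * t) (y + u * s) ^ 2
      have hφ : Continuous φ := by simp only [φ, quad, mm, ellForm]; fun_prop
      have hlin : ∀ u, ellForm s t (x - u * t) (y + u * s) = ellForm s t x y + u := fun u => by
        simp only [ellForm]; field_simp; ring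
      have key : ∀ u, u ≠ -ellForm s t x y → 0 ≤ φ u := fun u hu => by
        have hne : ellForm s t (x - u * t) (y + u * s) ≠ 0 := by
          rw [hlin]; intro e; exact hu (by linarith)
        have h := hE (x - u * t) (y + u * s)
        rw [hHell, hGell] at h
        have : 0 ≤ ellForm s t (x - u * t) (y + u * s) ^ 2 * φ u := by simp only [φ]; nlinarith
        exact nonneg_of_mul_nonneg_right this (by positivity)
      have h0 : 0 ≤ φ 0 := by
        rcases eq_or_ne (0 : ℝ) (-ellForm s t x y) with e | e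
        · have := nonneg_of_ne hφ key
          rwa [← e] at this
        · exact key 0 e
      simpa [φ] using h0
    have hs : 0 < Real.sqrt cH := Real.sqrt_pos.2 hcpos
    set lP : MvPolynomial (Fin 3) ℝ :=
      C (s / (s ^ 2 + t ^ 2)) * X 1 + C (-t / (s ^ 2 + t ^ 2)) * X 0 with hlP
    set mP : MvPolynomial (Fin 3) ℝ :=
      C polG * (C (s / (s ^ 2 + t ^ 2)) * X 0 + C (t / (s ^ 2 + t ^ 2)) * X 1) +
        C (quad g₀ g₁ g₂ (-t) s) * lP with hmP
    have hlPh : lP.IsHomogeneous 1 := (isHomogeneous_C_mul_X _ _).add (isHomogeneous_C_mul_X _ _)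
    have hmPh : mP.IsHomogeneous 1 :=
      (((isHomogeneous_C_mul_X _ _).add (isHomogeneous_C_mul_X _ _)).C_mul _).add (hlPh.C_mul _)
    have el : ∀ x y z : ℝ, eval ![x, y, z] lP = ellForm s t x y := fun x y z => by
      simp [hlP, ellForm]; ring
    have em : ∀ x y z : ℝ, eval ![x, y, z] mP = mm x y := fun x y z => by
      simp only [hmP, mm, map_add, map_mul, eval_C, el, eval_X, Matrix.cons_val_zero,
        Matrix.cons_val_one]
      ring
    refine ⟨C (Real.sqrt cH)⁻¹ * (mP * (X 2 - C lam * X 1) + C cH * (X 1 * lP)),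
      IsHomogeneous.C_mul ((hmPh.mul ((isHomogeneous_X ℝ 2).sub (isHomogeneous_C_mul_X _ _))).add
        (IsHomogeneous.C_mul ((isHomogeneous_X ℝ 1).mul hlPh) _)) _, ?_, fun v => ?_⟩
    · obtain ⟨x, hx⟩ : ∃ x : ℝ, ellForm s t x 1 ≠ 0 := by
        by_cases hs0 : s = 0
        · refine ⟨1, ?_⟩
          have ht : t ≠ 0 := hst.resolve_left fun h => h hs0
          simp [ellForm, hs0, ht]
        · exact ⟨0, by simp [ellForm, hs0, hN.ne']⟩
      refine ne_zero_of_eval ![x, 1, lam] ?_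
      simp [el, hs.ne', hx]
      exact hcpos.ne'
    · obtain ⟨x, y, z, rfl⟩ : ∃ x y z : ℝ, v = ![x, y, z] :=
        ⟨v 0, v 1, v 2, funext fun i => by fin_cases i <;> rfl⟩
      simp only [map_mul, map_add, map_sub, eval_C, eval_X, el, em, Matrix.cons_val_one,
        Matrix.cons_val_zero, Matrix.cons_val]
      rw [hF, hHell, hGell, mul_pow, inv_pow, Real.sq_sqrt hcpos.le, inv_mul_le_iff₀ hcpos]
      nlinarith [mul_nonneg (sub_nonneg.2 (hres x y)) (sq_nonneg (z - lam * y))]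

/-- Two zeros: the case that ends the descent. -/
theorem dominated_two_zeros (hp : p.IsHomogeneous 4) (hpsd : IsPsd p)
    (hz : eval ![0, 0, 1] p = 0) (hx : eval ![1, 0, 0] p = 0)
    (hdef : ∀ x y : ℝ, (x ≠ 0 ∨ y ≠ 0) →
      2 * eval ![x, y, 0] p < eval ![x, y, 1] p + eval ![x, y, -1] p) :
    Dominated 2 p := by
  obtain ⟨c, hc⟩ := exists_coeffs hp
  have c00 : c 0 0 = 0 := by simpa [hc] using hz
  have c40 : c 4 0 = 0 := by simpa [hc] using hx
  have c10 : c 1 0 = 0 := linear_coeff_eq_zero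
    (g := fun t => c 2 0 + c 3 0 * t + c 4 0 * t ^ 2) (by fun_prop) fun t => by
      have := hpsd ![t, 0, 1]; rw [hc, c00] at this; linear_combination this
  have c01 : c 0 1 = 0 := linear_coeff_eq_zero
    (g := fun t => c 0 2 + c 0 3 * t + c 0 4 * t ^ 2) (by fun_prop) fun t => by
      have := hpsd ![0, t, 1]; rw [hc, c00] at this; linear_combination this
  have c31 : c 3 1 = 0 := linear_coeff_eq_zero
    (g := fun t => c 2 2 + c 1 3 * t + c 0 4 * t ^ 2) (by fun_prop) fun t => by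
      have := hpsd ![1, t, 0]; rw [hc, c40] at this; linear_combination this
  have c30 : c 3 0 = 0 := linear_coeff_eq_zero
    (g := fun t => c 2 0 + c 1 0 * t + c 0 0 * t ^ 2) (by fun_prop) fun t => by
      have := hpsd ![1, 0, t]; rw [hc, c40] at this; linear_combination this
  have hF : ∀ x y z : ℝ, eval ![x, y, z] p = quad (c 2 0) (c 1 1) (c 0 2) x y * z ^ 2 +
      2 * (y * quad (c 2 1 / 2) (c 1 2 / 2) (c 0 3 / 2) x y) * z +
      y ^ 2 * quad (c 2 2) (c 1 3) (c 0 4) x y := fun x y z => by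
    rw [hc, c00, c10, c01, c30, c31, c40]
    simp only [quad]
    ring
  have hA : ∀ x y : ℝ, x ≠ 0 ∨ y ≠ 0 → 0 < quad (c 2 0) (c 1 1) (c 0 2) x y := fun x y h => by
    have := hdef x y h
    rw [hF, hF, hF] at this
    linarith
  have hE : ∀ x y : ℝ, quad (c 2 1 / 2) (c 1 2 / 2) (c 0 3 / 2) x y ^ 2 ≤
      quad (c 2 0) (c 1 1) (c 0 2) x y * quad (c 2 2) (c 1 3) (c 0 4) x y := fun x y => by
    have key : ∀ t, t ≠ 0 → 0 ≤ quad (c 2 0) (c 1 1) (c 0 2) x t *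
        quad (c 2 2) (c 1 3) (c 0 4) x t - quad (c 2 1 / 2) (c 1 2 / 2) (c 0 3 / 2) x t ^ 2 :=
      fun t ht => by
      have h := (quadratic_facts fun z => hF x t z ▸ hpsd _).2.2
      rw [mul_pow, mul_left_comm] at h
      exact sub_nonneg.2 (le_of_mul_le_mul_left h (by positivity))
    rcases eq_or_ne y 0 with rfl | hy
    · exact sub_nonneg.1 (nonneg_of_ne (φ := fun t => quad (c 2 0) (c 1 1) (c 0 2) x t *
        quad (c 2 2) (c 1 3) (c 0 4) x t - quad (c 2 1 / 2) (c 1 2 / 2) (c 0 3 / 2) x t ^ 2)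
        (by simp only [quad]; fun_prop) key)
    · exact sub_nonneg.1 (key y hy)
  by_cases hpos : ∀ x y, x ≠ 0 ∨ y ≠ 0 → quad (c 2 1 / 2) (c 1 2 / 2) (c 0 3 / 2) x y ^ 2 <
      quad (c 2 0) (c 1 1) (c 0 2) x y * quad (c 2 2) (c 1 3) (c 0 4) x y
  · exact dominated_pencil hpsd hA hpos hF
  push Not at hpos
  obtain ⟨s, t, hst, hle⟩ := hpos
  have hAr := hA s t hst
  set lam := -(quad (c 2 1 / 2) (c 1 2 / 2) (c 0 3 / 2) s t / quad (c 2 0) (c 1 1) (c 0 2) s t)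
  have eG : ∀ x y, quad (c 2 1 / 2 + lam * c 2 0) (c 1 2 / 2 + lam * c 1 1)
      (c 0 3 / 2 + lam * c 0 2) x y =
      quad (c 2 1 / 2) (c 1 2 / 2) (c 0 3 / 2) x y + lam * quad (c 2 0) (c 1 1) (c 0 2) x y :=
    fun x y => by simp only [quad]; ring
  have eH : ∀ x y, quad (c 2 2 + lam * c 2 1 + lam ^ 2 * c 2 0)
      (c 1 3 + lam * c 1 2 + lam ^ 2 * c 1 1) (c 0 4 + lam * c 0 3 + lam ^ 2 * c 0 2) x y =
      quad (c 2 2) (c 1 3) (c 0 4) x y + 2 * lam * quad (c 2 1 / 2) (c 1 2 / 2) (c 0 3 / 2) x y +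
        lam ^ 2 * quad (c 2 0) (c 1 1) (c 0 2) x y :=
    fun x y => by simp only [quad]; ring
  have hGr : quad (c 2 1 / 2) (c 1 2 / 2) (c 0 3 / 2) s t +
      lam * quad (c 2 0) (c 1 1) (c 0 2) s t = 0 := by
    simp only [lam]; field_simp; ring
  refine dominated_degenerate (lam := lam) (g₀ := c 2 1 / 2 + lam * c 2 0)
    (g₁ := c 1 2 / 2 + lam * c 1 1) (g₂ := c 0 3 / 2 + lam * c 0 2)
    (h₀ := c 2 2 + lam * c 2 1 + lam ^ 2 * c 2 0) (h₁ := c 1 3 + lam * c 1 2 + lam ^ 2 * c 1 1)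
    (h₂ := c 0 4 + lam * c 0 3 + lam ^ 2 * c 0 2) hst hA ?_ ?_ ((eG s t).trans hGr) ?_
    fun x y z => ?_
  · intro x y
    rw [eG, eH]
    nlinarith [hE x y]
  · intro x y
    rw [eH]
    by_cases h : x ≠ 0 ∨ y ≠ 0
    · by_contra! hneg
      nlinarith [hE x y, hA x y h, sq_nonneg (quad (c 2 1 / 2) (c 1 2 / 2) (c 0 3 / 2) x y +
        lam * quad (c 2 0) (c 1 1) (c 0 2) x y)]
    · push Not at h
      simp [quad, h.1, h.2]
  · rw [eH]
    have e : quad (c 2 0) (c 1 1) (c 0 2) s t * (quad (c 2 2) (c 1 3) (c 0 4) s t +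
        2 * lam * quad (c 2 1 / 2) (c 1 2 / 2) (c 0 3 / 2) s t +
        lam ^ 2 * quad (c 2 0) (c 1 1) (c 0 2) s t) = 0 := by
      nlinarith [hE s t, hGr]
    exact (mul_eq_zero.1 e).resolve_left hAr.ne'
  · rw [hF, eG, eH]
    ring

end Fermat.Agent.HilbertPsdSos
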